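import Mathlib.RingTheory.Int.Basic
import Mathlib.RingTheory.Multiplicity
import Mathlib.Tactic.FieldSimp
import Mathlib.Tactic.LinearCombination
import Fermat.Prelude.Def_FLTPrelim_FreyPackage
import Fermat.Prelude.Def_FLTPrelim_Modularity

/-!
The integral model of the Frey curve: integrality, semistability, and the 2-adic valuation of
its coefficient `a₄`.
-/

namespace Fermat.Agent.Frey

/-- An integral model with nonzero discriminant gives an elliptic curve over `ℚ`. -/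
theorem isElliptic_mapRat {W : WeierstrassCurve ℤ} (hΔ : W.Δ ≠ 0) :
    (W.map (Int.castRingHom ℚ)).IsElliptic :=
  ⟨by rw [WeierstrassCurve.map_Δ, isUnit_iff_ne_zero]; simpa using hΔ⟩

variable (P : FreyPackage)

/-- `32` divides `bᵖ`. -/
theorem thirtytwo_dvd_b_pow : (32 : ℤ) ∣ P.b ^ P.p := by
  have h2 : (2 : ℤ) ∣ P.b := (ZMod.intCast_zmod_eq_zero_iff_dvd P.b 2).1 P.hb2
  calc (32 : ℤ) = 2 ^ 5 := by norm_num
    _ ∣ P.b ^ 5 := pow_dvd_pow_of_dvd h2 5
    _ ∣ P.b ^ P.p := pow_dvd_pow P.b P.hp5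

/-- The numerator of `a₂` is divisible by `4`. -/
theorem four_dvd_a2_num : (4 : ℤ) ∣ P.b ^ P.p - 1 - P.a ^ P.p := by
  have h1 : (4 : ℤ) ∣ P.b ^ P.p := dvd_trans (by norm_num) (thirtytwo_dvd_b_pow P)
  have h2 : (4 : ℤ) ∣ 1 + P.a ^ P.p := by
    refine (ZMod.intCast_zmod_eq_zero_iff_dvd (1 + P.a ^ P.p) 4).1 ?_
    push_cast
    obtain ⟨k, hk⟩ := P.hp_odd
    rw [P.ha4, hk, pow_succ, pow_mul]
    have : (3 : ZMod 4) ^ 2 = 1 := by decide
    rw [this, one_pow, one_mul]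
    decide
  have e : P.b ^ P.p - 1 - P.a ^ P.p = P.b ^ P.p - (1 + P.a ^ P.p) := by ring
  rw [e]
  exact dvd_sub h1 h2

theorem sixteen_dvd_a4_num : (16 : ℤ) ∣ -(P.a ^ P.p) * (P.b ^ P.p) :=
  dvd_mul_of_dvd_right (dvd_trans (by norm_num) (thirtytwo_dvd_b_pow P)) _

theorem four_mul_a2 : 4 * P.freyCurveInt.a₂ = P.b ^ P.p - 1 - P.a ^ P.p :=
  Int.mul_ediv_cancel' (four_dvd_a2_num P)

theorem sixteen_mul_a4 : 16 * P.freyCurveInt.a₄ = -(P.a ^ P.p) * (P.b ^ P.p) :=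
  Int.mul_ediv_cancel' (sixteen_dvd_a4_num P)

/-- The Frey curve is the base change of its integral model. -/
theorem freyCurve_eq_map : P.freyCurve = P.freyCurveInt.map (Int.castRingHom ℚ) := by
  have h2 := congrArg (Int.cast (R := ℚ)) (four_mul_a2 P)
  have h4 := congrArg (Int.cast (R := ℚ)) (sixteen_mul_a4 P)
  push_cast at h2 h4
  ext
  · simp [FreyPackage.freyCurve, FreyPackage.freyCurveInt]
  · simp only [WeierstrassCurve.map_a₂, eq_intCast]
    simp only [FreyPackage.freyCurve]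
    linarith
  · simp [FreyPackage.freyCurve, FreyPackage.freyCurveInt]
  · simp only [WeierstrassCurve.map_a₄, eq_intCast]
    simp only [FreyPackage.freyCurve]
    linarith
  · simp [FreyPackage.freyCurve, FreyPackage.freyCurveInt]

/-- `c₄` of the integral model, in terms of `aᵖ` and `bᵖ`. -/
theorem freyCurveInt_c₄ :
    P.freyCurveInt.c₄ = (P.a ^ P.p) ^ 2 + P.a ^ P.p * P.b ^ P.p + (P.b ^ P.p) ^ 2 := by
  have h2 := four_mul_a2 P
  have h4 := sixteen_mul_a4 P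
  simp only [WeierstrassCurve.c₄, WeierstrassCurve.b₂, WeierstrassCurve.b₄]
  have e1 : P.freyCurveInt.a₁ = 1 := rfl
  have e3 : P.freyCurveInt.a₃ = 0 := rfl
  rw [e1, e3]
  linear_combination (4 * P.freyCurveInt.a₂ + P.b ^ P.p + 1 - P.a ^ P.p) * h2 - 3 * h4

/-- The discriminant of the integral model is `(abc)^(2p) / 256`. -/
theorem freyCurveInt_Δ :
    256 * P.freyCurveInt.Δ = (P.a ^ P.p * P.b ^ P.p * P.c ^ P.p) ^ 2 := by
  have h2 := four_mul_a2 P
  have h4 := sixteen_mul_a4 P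
  have hc := P.hFLT
  have hΔ : P.freyCurveInt.Δ = P.freyCurveInt.a₄ ^ 2 * ((1 + 4 * P.freyCurveInt.a₂) ^ 2
      - 64 * P.freyCurveInt.a₄) := by
    have e1 : P.freyCurveInt.a₁ = 1 := rfl
    have e3 : P.freyCurveInt.a₃ = 0 := rfl
    have e6 : P.freyCurveInt.a₆ = 0 := rfl
    simp only [WeierstrassCurve.Δ, WeierstrassCurve.b₂, WeierstrassCurve.b₄, WeierstrassCurve.b₆,
      WeierstrassCurve.b₈, e1, e3, e6]
    ring
  have hb : 1 + 4 * P.freyCurveInt.a₂ = P.b ^ P.p - P.a ^ P.p := by linear_combination h2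
  calc 256 * P.freyCurveInt.Δ
      = (16 * P.freyCurveInt.a₄) ^ 2 * ((P.b ^ P.p - P.a ^ P.p) ^ 2
          - 4 * (16 * P.freyCurveInt.a₄)) := by rw [hΔ, hb]; ring
    _ = (P.a ^ P.p * P.b ^ P.p * P.c ^ P.p) ^ 2 := by rw [h4, ← hc]; ring

/-- The discriminant of the integral model is nonzero. -/
theorem freyCurveInt_Δ_ne_zero : P.freyCurveInt.Δ ≠ 0 := by
  intro h
  have := freyCurveInt_Δ P
  rw [h, mul_zero] at this
  exact pow_ne_zero 2 (mul_ne_zero (mul_ne_zero (pow_ne_zero _ P.ha0) (pow_ne_zero _ P.hb0))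
    (pow_ne_zero _ P.hc0)) this.symm

/-- The Frey curve is an elliptic curve. -/
theorem isElliptic_freyCurve : P.freyCurve.IsElliptic := by
  constructor
  rw [freyCurve_eq_map, WeierstrassCurve.map_Δ, isUnit_iff_ne_zero]
  exact fun h => freyCurveInt_Δ_ne_zero P (Int.cast_injective (h.trans Int.cast_zero.symm))

/-- A prime does not divide both of two coprime integers. -/
theorem not_dvd_both {q : ℕ} (hq : q.Prime) {a b : ℤ} (h : gcd a b = 1) (ha : (q : ℤ) ∣ a)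
    (hb : (q : ℤ) ∣ b) : False := by
  have h1 : (q : ℤ) ∣ 1 := h ▸ dvd_gcd ha hb
  have : q ∣ 1 := by exact_mod_cast h1
  exact hq.not_dvd_one this

/-- The integral model of the Frey curve is semistable. -/
theorem freyCurveInt_isSemistable : P.freyCurveInt.IsSemistableModel := by
  intro q hq hΔ hc
  have hqI : Prime (q : ℤ) := Nat.prime_iff_prime_int.1 hq
  have h := (freyCurveInt_Δ P) ▸ hΔ.mul_left 256
  have h' : (q : ℤ) ∣ P.a ^ P.p * P.b ^ P.p * P.c ^ P.p := hqI.dvd_of_dvd_pow h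
  rw [freyCurveInt_c₄] at hc
  have root : ∀ x : ℤ, (q : ℤ) ∣ (x ^ P.p) ^ 2 → (q : ℤ) ∣ x := fun x h =>
    hqI.dvd_of_dvd_pow (hqI.dvd_of_dvd_pow h)
  rcases hqI.dvd_mul.1 h' with h1 | h1
  · rcases hqI.dvd_mul.1 h1 with h2 | h2
    · exact not_dvd_both hq P.hgcdab (hqI.dvd_of_dvd_pow h2) <| root _ <|
        (dvd_sub hc (h2.mul_right (P.a ^ P.p + P.b ^ P.p))).trans (dvd_of_eq (by ring))
    · refine not_dvd_both hq P.hgcdab (root _ ?_) (hqI.dvd_of_dvd_pow h2)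
      exact (dvd_sub hc (h2.mul_right (P.a ^ P.p + P.b ^ P.p))).trans (dvd_of_eq (by ring))
  · refine not_dvd_both hq P.hgcdac (root _ ?_) (hqI.dvd_of_dvd_pow h1)
    exact (dvd_sub hc (h1.mul_right (P.b ^ P.p))).trans (dvd_of_eq (by rw [← P.hFLT]; ring))

/-- At `2`, `a₄ = 2 ^ N · odd` with `1 ≤ N` and `p ∤ N`. -/
theorem freyCurveInt_a4_two : ∃ (N : ℕ) (u : ℤ),
    P.freyCurveInt.a₄ = 2 ^ N * u ∧ ¬ (2 : ℤ) ∣ u ∧ 1 ≤ N ∧ ¬ P.p ∣ N := by
  have h2 : Prime (2 : ℤ) := Int.prime_two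
  have hfin : FiniteMultiplicity (2 : ℤ) P.b :=
    Int.finiteMultiplicity_iff.2 ⟨by norm_num, P.hb0⟩
  obtain ⟨b', hb', hodd⟩ := hfin.exists_eq_pow_mul_and_not_dvd
  set m := multiplicity (2 : ℤ) P.b
  have hbd : (2 : ℤ) ∣ P.b := (ZMod.intCast_zmod_eq_zero_iff_dvd P.b 2).1 P.hb2
  have hm : 1 ≤ m := by
    by_contra hm0
    have : m = 0 := by omega
    rw [this, pow_zero, one_mul] at hb'
    exact hodd (hb' ▸ hbd)
  have hpm : 5 ≤ P.p * m := le_trans P.hp5 (Nat.le_mul_of_pos_right _ hm)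
  refine ⟨P.p * m - 4, -(P.a ^ P.p) * b' ^ P.p, ?_, ?_, by omega, ?_⟩
  · have h4 := sixteen_mul_a4 P
    have e : (2 : ℤ) ^ (P.p * m) = 16 * 2 ^ (P.p * m - 4) := by
      rw [show (16 : ℤ) = 2 ^ 4 by norm_num, ← pow_add]; congr 1; omega
    rw [hb', mul_pow, ← pow_mul, mul_comm m, e] at h4
    refine mul_left_cancel₀ (show (16 : ℤ) ≠ 0 by norm_num) (h4.trans ?_)
    ring
  · rw [h2.dvd_mul, dvd_neg]
    rintro (h | h)
    · exact not_dvd_both Nat.prime_two P.hgcdab (by exact_mod_cast h2.dvd_of_dvd_pow h)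
        (by exact_mod_cast hbd)
    · exact hodd (h2.dvd_of_dvd_pow h)
  · intro h
    have h4 : P.p ∣ 4 := by
      have := Nat.dvd_sub (dvd_mul_right P.p m) h
      rwa [Nat.sub_sub_self (by omega)] at this
    have := Nat.le_of_dvd (by norm_num) h4
    have := P.hp5
    omega

end Fermat.Agent.Frey
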