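import Mathlib.RingTheory.Valuation.Basic
import Mathlib.RingTheory.Valuation.ValuationSubring
import Mathlib.Tactic.FieldSimp
import Mathlib.Tactic.LinearCombination
import Mathlib.Tactic.Ring

/-!
Elementary calculus of a valuation subring `A` of a field: elements of `A`, of its
maximal ideal (`A.nonunits`, abbreviated `m` in lemma names), and units (`IsU`).
-/

namespace Fermat.Agent.Frey

variable {K : Type*} [Field K] {A : ValuationSubring K}

/-- `x` is a unit of the valuation subring `A`. -/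
def IsU (A : ValuationSubring K) (x : K) : Prop := A.valuation x = 1

theorem mem_iff_val {x : K} : x ∈ A ↔ A.valuation x ≤ 1 := (A.valuation_le_one_iff x).symm

theorem m_iff_val {x : K} : x ∈ A.nonunits ↔ A.valuation x < 1 := A.mem_nonunits_iff

theorem not_mem_iff_val {x : K} : x ∉ A ↔ 1 < A.valuation x := by
  rw [mem_iff_val, not_le]

theorem m_mem {x : K} (hx : x ∈ A.nonunits) : x ∈ A := A.nonunits_subset hx

theorem m_zero : (0 : K) ∈ A.nonunits := by simp

theorem m_add {x y : K} (hx : x ∈ A.nonunits) (hy : y ∈ A.nonunits) : x + y ∈ A.nonunits :=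
  add_mem hx hy

theorem m_sub {x y : K} (hx : x ∈ A.nonunits) (hy : y ∈ A.nonunits) : x - y ∈ A.nonunits := by
  rw [m_iff_val] at *
  exact A.valuation.map_sub_lt hx hy

theorem m_neg {x : K} (hx : x ∈ A.nonunits) : -x ∈ A.nonunits := by
  rw [m_iff_val] at *
  rwa [Valuation.map_neg]

/-- The maximal ideal absorbs multiplication by elements of `A`. -/
theorem m_mul_left {x y : K} (hx : x ∈ A) (hy : y ∈ A.nonunits) : x * y ∈ A.nonunits := by
  rw [m_iff_val] at *
  rw [mem_iff_val] at hx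
  rw [map_mul]
  exact mul_lt_one_of_nonneg_of_lt_one_right hx zero_le hy

theorem m_mul_right {x y : K} (hx : x ∈ A.nonunits) (hy : y ∈ A) : x * y ∈ A.nonunits := by
  rw [mul_comm]; exact m_mul_left hy hx

theorem m_pow {x : K} (hx : x ∈ A.nonunits) {n : ℕ} (hn : n ≠ 0) : x ^ n ∈ A.nonunits := by
  obtain ⟨k, rfl⟩ := Nat.exists_eq_succ_of_ne_zero hn
  rw [pow_succ]
  exact m_mul_left (pow_mem (m_mem hx) k) hx

theorem IsU.mem {x : K} (hx : IsU A x) : x ∈ A := mem_iff_val.2 (le_of_eq hx)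

theorem IsU.not_m {x : K} (hx : IsU A x) : x ∉ A.nonunits := by
  rw [m_iff_val, hx]; exact lt_irrefl 1

theorem IsU.ne_zero {x : K} (hx : IsU A x) : x ≠ 0 := by
  rintro rfl
  simp [IsU] at hx

theorem isU_iff {x : K} : IsU A x ↔ x ∈ A ∧ x ∉ A.nonunits := by
  refine ⟨fun h => ⟨h.mem, h.not_m⟩, fun ⟨h, h'⟩ => ?_⟩
  rw [m_iff_val, not_lt] at h'
  exact le_antisymm (mem_iff_val.1 h) h'

theorem isU_of_mem {x : K} (h : x ∈ A) (h' : x ∉ A.nonunits) : IsU A x := isU_iff.2 ⟨h, h'⟩

theorem isU_one : IsU A (1 : K) := map_one _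

theorem IsU.mul {x y : K} (hx : IsU A x) (hy : IsU A y) : IsU A (x * y) := by
  simp [IsU] at *; rw [hx, hy, one_mul]

theorem IsU.inv {x : K} (hx : IsU A x) : IsU A x⁻¹ := by
  simp [IsU] at *; rw [hx]

theorem IsU.div {x y : K} (hx : IsU A x) (hy : IsU A y) : IsU A (x / y) := by
  rw [div_eq_mul_inv]; exact hx.mul hy.inv

theorem IsU.neg {x : K} (hx : IsU A x) : IsU A (-x) := by
  simpa [IsU] using hx

theorem IsU.pow {x : K} (hx : IsU A x) (n : ℕ) : IsU A (x ^ n) := by
  simp [IsU] at *; exact Or.inl hx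

theorem IsU.add_m {x y : K} (hx : IsU A x) (hy : y ∈ A.nonunits) : IsU A (x + y) := by
  have h : A.valuation y < A.valuation x := by rw [hx]; exact m_iff_val.1 hy
  exact (A.valuation.map_add_eq_of_lt_left h).trans hx

theorem IsU.of_sub_m {x y : K} (hx : IsU A x) (hy : y - x ∈ A.nonunits) : IsU A y := by
  simpa using hx.add_m hy

theorem IsU.of_pow {x : K} {n : ℕ} (hn : n ≠ 0) (hx : IsU A (x ^ n)) : IsU A x := by
  simp [IsU] at *
  exact hx.resolve_right hn

theorem m_of_pow {x : K} {n : ℕ} (hn : n ≠ 0) (hx : x ^ n ∈ A.nonunits) : x ∈ A.nonunits := by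
  rw [m_iff_val, map_pow] at hx
  exact m_iff_val.2 ((pow_lt_one_iff hn).1 hx)

theorem inv_m_of_not_mem {x : K} (hx : x ∉ A) : x⁻¹ ∈ A.nonunits :=
  A.inv_mem_nonunits_iff.2 (Or.inr hx)

theorem not_mem_div {n d : K} (hn : n ∉ A.nonunits) (hd : d ∈ A.nonunits) (hd0 : d ≠ 0) :
    n / d ∉ A := fun h => hn (by simpa [div_mul_cancel₀ n hd0] using m_mul_left h hd)

theorem mem_div_of_isU {n d : K} (hn : n ∈ A) (hd : IsU A d) : n / d ∈ A := by
  rw [div_eq_mul_inv]; exact mul_mem hn hd.inv.mem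

theorem m_div_of_isU {n d : K} (hn : n ∈ A.nonunits) (hd : IsU A d) : n / d ∈ A.nonunits := by
  rw [div_eq_mul_inv]; exact m_mul_right hn hd.inv.mem

/-- A root of a monic quadratic with coefficients in `A` lies in `A`. -/
theorem mem_of_quadratic {z b c : K} (h : z ^ 2 + b * z + c = 0) (hb : b ∈ A) (hc : c ∈ A) :
    z ∈ A := by
  by_contra hz
  have hz0 : z ≠ 0 := fun h0 => hz (h0 ▸ zero_mem A)
  have hi := inv_m_of_not_mem hz
  have : (-1 : K) = b * z⁻¹ + c * z⁻¹ * z⁻¹ := by
    field_simp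
    linear_combination -h
  exact isU_one.neg.not_m (this ▸ m_add (m_mul_left hb hi)
    (m_mul_left (mul_mem hc (m_mem hi)) hi))

/-- A root of a monic quadratic with other coefficients in the maximal ideal lies in it. -/
theorem m_of_quadratic {z b c : K} (h : z ^ 2 + b * z + c = 0) (hb : b ∈ A.nonunits)
    (hc : c ∈ A.nonunits) : z ∈ A.nonunits := by
  have hz := mem_of_quadratic h (m_mem hb) (m_mem hc)
  have : z ^ 2 = -(b * z + c) := by linear_combination h
  exact m_of_pow two_ne_zero (this ▸ m_neg (m_add (m_mul_right hb hz) hc))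

theorem intCast_mem (A : ValuationSubring K) (n : ℤ) : (n : K) ∈ A := _root_.intCast_mem A n

theorem natCast_mem (A : ValuationSubring K) (n : ℕ) : (n : K) ∈ A := _root_.natCast_mem A n

theorem ofNat_mem (A : ValuationSubring K) (n : ℕ) [n.AtLeastTwo] :
    (OfNat.ofNat n : K) ∈ A := natCast_mem A n

end Fermat.Agent.Frey
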