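import Mathlib.Algebra.Algebra.Rat
import Mathlib.Algebra.Polynomial.Degree.Lemmas
import Mathlib.Algebra.Polynomial.Eval.Coeff
import Mathlib.Algebra.Polynomial.Monic
import Mathlib.Algebra.Polynomial.RingDivision
import Mathlib.Algebra.Polynomial.Roots
import Fermat.Agent.Frey.Valuation

/-!
A Gauss lemma at a valuation subring: if a polynomial with coefficients in `A` has the roots
`x ∈ S`, then (leading coefficient) · ∏ x lies in `A`.
-/

namespace Fermat.Agent.Frey

open Polynomial

variable {K : Type*} [Field K] {A : ValuationSubring K}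

/-- If `(X - x) g` has coefficients in `A`, so does `x g`. -/
theorem coeff_C_mul_mem {x : K} {g : K[X]} (h : ∀ i, ((X - C x) * g).coeff i ∈ A) :
    ∀ i, (C x * g).coeff i ∈ A := by
  simp only [coeff_C_mul]
  by_cases hx : x ∈ A
  · intro i
    refine mul_mem hx ?_
    -- downward induction from above the degree
    suffices H : ∀ j i, g.natDegree < i + j → g.coeff i ∈ A from H (g.natDegree + 1) i (by omega)
    intro j
    induction j with
    | zero => intro i hi; rw [coeff_eq_zero_of_natDegree_lt (by omega)]; exact zero_mem A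
    | succ j ih =>
      intro i hi
      have e : g.coeff i = ((X - C x) * g).coeff (i + 1) + x * g.coeff (i + 1) := by
        simp [sub_mul]
      rw [e]
      exact add_mem (h _) (mul_mem hx (ih (i + 1) (by omega)))
  · intro i
    induction i with
    | zero =>
      have e : x * g.coeff 0 = -((X - C x) * g).coeff 0 := by simp [sub_mul]
      rw [e]; exact neg_mem (h 0)
    | succ i ih =>
      have hx0 : x ≠ 0 := fun e => hx (e ▸ zero_mem A)
      have e : x * g.coeff (i + 1) = x⁻¹ * (x * g.coeff i) - ((X - C x) * g).coeff (i + 1) := by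
        rw [inv_mul_cancel_left₀ hx0]; simp [sub_mul]
      rw [e]
      exact sub_mem (mul_mem (m_mem (inv_m_of_not_mem hx)) ih) (h _)

theorem coeff_C_prod_mul_mem (S : Finset K) :
    ∀ g : K[X], (∀ i, ((∏ x ∈ S, (X - C x)) * g).coeff i ∈ A) →
      ∀ i, (C (∏ x ∈ S, x) * g).coeff i ∈ A := by
  classical
  induction S using Finset.induction_on with
  | empty => simp
  | insert a s ha ih =>
    intro g h i
    rw [Finset.prod_insert ha] at h ⊢
    have h' : ∀ i, (C a * ((∏ x ∈ s, (X - C x)) * g)).coeff i ∈ A := by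
      refine coeff_C_mul_mem fun i => ?_
      rw [← mul_assoc]; exact h i
    have := ih (C a * g) (fun i => by rw [mul_left_comm]; exact h' i) i
    rwa [← mul_assoc, ← map_mul, mul_comm (∏ x ∈ s, x)] at this

/-- Gauss lemma: the leading coefficient times a product of distinct roots is integral. -/
theorem leadingCoeff_mul_prod_mem {f : K[X]} (hf : ∀ i, f.coeff i ∈ A) (hf0 : f ≠ 0)
    (S : Finset K) (hS : ∀ x ∈ S, f.IsRoot x) : f.leadingCoeff * ∏ x ∈ S, x ∈ A := by
  classical
  have hle : S.val ≤ f.roots :=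
    (Multiset.le_iff_subset S.nodup).2 fun x hx => (mem_roots hf0).2 (hS x hx)
  have hdvd : (∏ x ∈ S, (X - C x)) ∣ f :=
    (Multiset.prod_X_sub_C_dvd_iff_le_roots hf0 S.val).2 hle
  obtain ⟨g, rfl⟩ := hdvd
  have := coeff_C_prod_mul_mem S g hf g.natDegree
  rw [coeff_C_mul] at this
  have hl : ((∏ x ∈ S, (X - C x)) * g).leadingCoeff = g.leadingCoeff :=
    leadingCoeff_monic_mul (monic_prod_of_monic S (fun x => X - C x) fun x _ => monic_X_sub_C x)
  rw [hl, mul_comm]
  exact this

/-- A root of a polynomial over `A` with unit leading coefficient is in `A`. -/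
theorem mem_of_isRoot {f : K[X]} (hf : ∀ i, f.coeff i ∈ A) (hu : IsU A f.leadingCoeff) {x : K}
    (hx : f.IsRoot x) : x ∈ A := by
  have h := leadingCoeff_mul_prod_mem hf (fun e => hu.ne_zero (by simp [e])) {x} (by simpa)
  rw [Finset.prod_singleton] at h
  simpa [← mul_assoc, inv_mul_cancel₀ hu.ne_zero] using mul_mem hu.inv.mem h

/-- A nonempty product of elements outside `A` is outside `A`. -/
theorem prod_not_mem {S : Finset K} (hne : S.Nonempty) (h : ∀ x ∈ S, x ∉ A) :
    (∏ x ∈ S, x) ∉ A := by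
  rw [not_mem_iff_val, map_prod]
  obtain ⟨a, ha⟩ := hne
  classical
  rw [← Finset.mul_prod_erase S _ ha]
  refine one_lt_mul_of_lt_of_le (not_mem_iff_val.1 (h a ha)) ?_
  exact Finset.one_le_prod' fun x hx => (not_mem_iff_val.1 (h x (Finset.mem_of_mem_erase hx))).le

/-- If the product of the roots in `S` is rational and not in `A`, all other roots are in `A`. -/
theorem mem_of_rat_prod [CharZero K] {p : ℕ}
    (hA : ∀ n : ℤ, (n : K) ∈ A.nonunits ↔ (p : ℤ) ∣ n) {f : K[X]} (hf : ∀ i, f.coeff i ∈ A)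
    (hl : f.leadingCoeff = (p : K)) (hp : p ≠ 0) {S : Finset K} (hS : ∀ x ∈ S, f.IsRoot x)
    (hSm : (∏ x ∈ S, x) ∉ A) {q : ℚ} (hq : ∏ x ∈ S, x = (q : K)) {y : K} (hy : y ∉ S)
    (hyroot : f.IsRoot y) : y ∈ A := by
  classical
  have hp' : (p : K) ≠ 0 := Nat.cast_ne_zero.2 hp
  have hf0 : f ≠ 0 := fun e => hp' (by rw [← hl, e, leadingCoeff_zero])
  have key := leadingCoeff_mul_prod_mem hf hf0 (insert y S) (by
    intro x hx
    rcases Finset.mem_insert.1 hx with rfl | h
    exacts [hyroot, hS x h])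
  rw [Finset.prod_insert hy, hl, hq] at key
  rw [hq] at hSm
  have hq0 : q ≠ 0 := by rintro rfl; exact hSm (by simp)
  have hn0 : ((q.num : ℤ) : K) ≠ 0 := Int.cast_ne_zero.2 (Rat.num_ne_zero.2 hq0)
  have hd0 : ((q.den : ℤ) : K) ≠ 0 := by simp
  have eq' : (q : K) = ((q.num : ℤ) : K) / ((q.den : ℤ) : K) := by
    rw [Int.cast_natCast]; exact Rat.cast_def q
  have hden : (p : ℤ) ∣ (q.den : ℤ) := by
    rw [← hA]
    by_contra h
    exact hSm (eq' ▸ mem_div_of_isU (intCast_mem A _) (isU_of_mem (intCast_mem A _) h))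
  obtain ⟨d', hd'⟩ := hden
  have hnu : IsU A ((q.num : ℤ) : K) := by
    refine isU_of_mem (intCast_mem A _) fun h => ?_
    have hcop : IsCoprime q.num (q.den : ℤ) := Int.isCoprime_iff_gcd_eq_one.2 q.reduced
    have hu : IsUnit (p : ℤ) :=
      hcop.isUnit_of_dvd' ((hA _).1 h) ⟨d', hd'⟩
    have h1 : ((1 : ℤ) : K) ∈ A.nonunits := (hA 1).2 (isUnit_iff_dvd_one.1 hu)
    rw [Int.cast_one] at h1
    exact isU_one.not_m h1
  have e : y = (p : K) * (y * q) * ((d' : K) / ((q.num : ℤ) : K)) := by
    rw [eq']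
    have : ((q.den : ℤ) : K) = (p : K) * (d' : K) := by rw [hd']; push_cast; ring
    rw [this] at hd0 ⊢
    obtain ⟨-, hd1⟩ := mul_ne_zero_iff.1 hd0
    field_simp
  rw [e]
  exact mul_mem key (mem_div_of_isU (intCast_mem A _) hnu)

end Fermat.Agent.Frey
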