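import Fermat.Agent.Frey.NodeExists

/-!
An element of inertia at a multiplicative (or good) place acts on odd torsion in such a way that
`(σ - 1)²` lands in the points reducing to `O`.
-/

namespace Fermat.Agent.Frey

open WeierstrassCurve WeierstrassCurve.Affine WeierstrassCurve.Affine.Point

variable {K : Type*} [Field K]

/-- `σ` behaves like an element of the inertia group of `A`. -/
structure InertiaLike (A : ValuationSubring K) (σ : K ≃+* K) : Prop where
  mem_iff : ∀ x, σ x ∈ A ↔ x ∈ A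
  res : ∀ x ∈ A, σ x - x ∈ A.nonunits
  periodic : ∀ x, ∃ n : ℕ, 0 < n ∧ (⇑σ)^[n] x = x

variable {A : ValuationSubring K} {σ : K ≃+* K}

/-- Inertia preserves the maximal ideal. -/
theorem InertiaLike.map_m (h : InertiaLike A σ) {x : K} (hx : x ∈ A.nonunits) :
    σ x ∈ A.nonunits := by
  simpa using m_add (h.res x (m_mem hx)) hx

/-- The ratio `σ u / u` is not in the maximal ideal: the ratios along the orbit multiply to `1`. -/
theorem InertiaLike.ratio_not_m (h : InertiaLike A σ) {u : K} (hu : u ≠ 0) :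
    σ u / u ∉ A.nonunits := by
  intro h0
  have hall : ∀ i, (⇑σ)^[i + 1] u / u ∈ A.nonunits := by
    intro i
    induction i with
    | zero => exact h0
    | succ i ih =>
      have e : (⇑σ)^[i + 2] u / u = σ ((⇑σ)^[i + 1] u / u) * (σ u / u) := by
        rw [map_div₀, Function.iterate_succ_apply' σ (i + 1),
          div_mul_div_cancel₀ (by simpa using hu)]
      rw [e]
      exact m_mul_left (m_mem (h.map_m ih)) h0
  obtain ⟨n, hn, hper⟩ := h.periodic u
  obtain ⟨m, rfl⟩ := Nat.exists_eq_succ_of_ne_zero hn.ne'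
  have := hall m
  rw [hper, div_self hu] at this
  exact isU_one.not_m this

/-- Inertia preserves valuations. -/
theorem InertiaLike.isU_ratio (h : InertiaLike A σ) {u : K} (hu : u ≠ 0) :
    IsU A (σ u / u) := by
  refine isU_of_mem (by_contra fun hA => ?_) (h.ratio_not_m hu)
  refine h.ratio_not_m (inv_ne_zero hu) ?_
  rw [map_inv₀, inv_div_inv, ← inv_div]
  exact inv_m_of_not_mem hA

variable [CharZero K] [DecidableEq K] {ℓ : ℕ} (W : WeierstrassCurve ℤ)
  {E : WeierstrassCurve.Affine K}

omit [CharZero K] [DecidableEq K] in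
/-- Inertia preserves the points reducing to `O`. -/
theorem far_map (hσ : InertiaLike A σ) (g : E.Point → E.Point) (hg0 : g 0 = 0)
    (hg : ∀ x y h, ∃ h', g (.some x y h) = .some (σ x) (σ y) h') {P : E.Point}
    (hP : Far E A P) : Far E A (g P) := by
  cases P with
  | zero => rw [← Point.zero_def, hg0]; exact far_zero
  | some x y h =>
    obtain ⟨h', e⟩ := hg x y h
    rw [e, far_some, hσ.mem_iff]
    exact hP

omit [CharZero K] in
/-- A point which is not singular-reducing is congruent to its conjugate. -/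
theorem far_sub_of_not_sing (hW : IntCoeff A E) (hσ : InertiaLike A σ) (g : E.Point →+ E.Point)
    (hg : ∀ x y h, ∃ h', g (.some x y h) = .some (σ x) (σ y) h') {P : E.Point}
    (hP : ¬ Sing E A P) : Far E A (g P - P) := by
  by_cases hF : Far E A P
  · rw [sub_eq_add_neg]
    exact far_add hW (far_map hσ g (_root_.map_zero g) hg hF) (far_neg.2 hF)
  · obtain ⟨x, y, h, rfl, hx⟩ := not_far_iff.1 hF
    obtain ⟨h', e⟩ := hg x y h
    rw [e]
    exact far_sub_of_congr hW hx (hσ.res x hx) (hσ.res y (y_mem hW h.1 hx))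
      fun hs => hP (sing_some.2 ⟨hx, hs⟩)

/-- For odd torsion `P`, the difference `σP - P` does not reduce to the singular point. -/
theorem not_sing_sub (hℓ : ℓ.Prime) (hA : ∀ n : ℤ, (n : K) ∈ A.nonunits ↔ (ℓ : ℤ) ∣ n)
    (hΔ : W.Δ ≠ 0) (hss : (ℓ : ℤ) ∣ W.Δ → ¬ (ℓ : ℤ) ∣ W.c₄)
    (hE : E = W.map (Int.castRingHom K)) (hσ : InertiaLike A σ)
    (g : E.Point →+ E.Point)
    (hg : ∀ x y h, ∃ h', g (.some x y h) = .some (σ x) (σ y) h')
    {n : ℕ} (hn : Odd n) {P : E.Point} (hP : n • P = 0) :
    ¬ Sing E A (g P - P) := by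
  have hW := intCoeff_map W A hE
  have far_not_sing : ∀ {Q : E.Point}, Far E A Q → ¬ Sing E A Q := by
    intro Q hQ hs
    cases Q with
    | zero => exact hs
    | some x y h => exact hQ hs.1
  by_cases hs : Sing E A P
  swap
  · exact far_not_sing (far_sub_of_not_sing hW hσ g hg hs)
  cases P with
  | zero => exact absurd hs not_sing_zero
  | some x y h =>
    have hd := dvd_Δ_of_sing hA W hE hs
    obtain ⟨r, t, hn0⟩ := exists_nodeAt hℓ hA W hΔ (hss hd) hE hs
    by_cases hmid : (x - r) ^ 2 / ((r : K) ^ 3 + E.a₂ * r ^ 2 + E.a₄ * r + E.a₆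
        - ((t : K) ^ 2 + E.a₁ * r * t + E.a₃ * t)) ∈ A
    · -- middle component: doubling leaves the node
      set Q := (Point.some x y h : E.Point) with hQ
      have h2 : Far E A (g (Q + Q) - (Q + Q)) :=
        far_sub_of_not_sing hW hσ g hg (hn0.not_sing_double hs hmid)
      obtain ⟨k, rfl⟩ := hn
      have e : g Q - Q = (k + 1) • (g (Q + Q) - (Q + Q)) := by
        have hz : (2 * k + 1) • (g Q - Q) = 0 := by
          rw [smul_sub, ← map_nsmul, hP, _root_.map_zero, sub_self]
        have e2 : g (Q + Q) - (Q + Q) = 2 • (g Q - Q) := by rw [map_add, two_nsmul]; abel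
        rw [e2, ← mul_smul, show (k + 1) * 2 = (2 * k + 1) + 1 by ring, add_smul, hz, zero_add,
          one_smul]
      rw [e]
      exact far_not_sing ((mem_farSubgroup hW).1
        (AddSubgroup.nsmul_mem _ ((mem_farSubgroup hW).2 h2) _))
    · -- branch component
      have hu0 : x - (r : K) ≠ 0 := by
        intro e; apply hmid; simp [e]
      have hbr := inv_m_of_not_mem hmid
      rw [inv_div] at hbr
      obtain ⟨h', e⟩ := hg x y h
      rw [e]
      have hr : σ x - r = σ (x - r) := by simp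
      have ht : σ y - t = σ (y - t) := by simp
      refine hn0.not_sing_sub hs hbr hu0 (by rw [hr]; exact hσ.isU_ratio hu0) ?_
      rw [hr, ht, ← map_div₀]
      refine hσ.res _ ?_
      exact (hn0.coeff.branch_w (translated_eq h.1 (r : K) t) (hn0.sing_iff.1 hs) hu0 hbr).2.1

/-- `(σ - 1)²` maps odd torsion to points reducing to `O`. -/
theorem far_sub_sub (hℓ : ℓ.Prime) (hA : ∀ n : ℤ, (n : K) ∈ A.nonunits ↔ (ℓ : ℤ) ∣ n)
    (hΔ : W.Δ ≠ 0) (hss : (ℓ : ℤ) ∣ W.Δ → ¬ (ℓ : ℤ) ∣ W.c₄)
    (hE : E = W.map (Int.castRingHom K)) (hσ : InertiaLike A σ)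
    (g : E.Point →+ E.Point)
    (hg : ∀ x y h, ∃ h', g (.some x y h) = .some (σ x) (σ y) h')
    {n : ℕ} (hn : Odd n) {P : E.Point} (hP : n • P = 0) :
    Far E A (g (g P - P) - (g P - P)) :=
  far_sub_of_not_sing (intCoeff_map W A hE) hσ g hg
    (not_sing_sub W hℓ hA hΔ hss hE hσ g hg hn hP)

end Fermat.Agent.Frey
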