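import Mathlib.Algebra.CharZero.Defs
import Fermat.Agent.EC.XMul

/-!
For `n = 2m + 1`, `den W n` is the square of `psi W m`, a polynomial of degree `(n²-1)/2` with
leading coefficient `n` whose roots are the abscissas of the `n`-torsion points.
-/

noncomputable section

namespace Fermat.Agent.Frey

open WeierstrassCurve Polynomial

variable {R S : Type*} [CommRing R] [CommRing S]

/-- The odd division polynomial `ψ_{2m+1}`. -/
def psi (W : WeierstrassCurve R) (m : ℕ) : R[X] :=
  EC.num W m * EC.den W (m + 1) - EC.den W m * EC.num W (m + 1)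

theorem psi_sq (W : WeierstrassCurve R) (m : ℕ) :
    psi W m ^ 2 = EC.den W (2 * m + 1) := by
  simp only [psi, EC.den, EC.num, EC.xMul_two_mul_add_one, EC.diffPair]
  ring

theorem psi_map (W : WeierstrassCurve R) (f : R →+* S) (m : ℕ) :
    psi (W.map f) m = (psi W m).map f := by
  simp [psi, EC.num_map, EC.den_map]

theorem degCoeff_psi (W : WeierstrassCurve R) {m : ℕ} (hm : 1 ≤ m) :
    EC.DegCoeff (psi W m) (2 * m * (m + 1)) ((2 * m + 1 : ℕ) : R) := by
  obtain ⟨hN, hD⟩ := EC.degCoeff_xMul W hm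
  obtain ⟨hN', hD'⟩ := EC.degCoeff_xMul W (n := m + 1) (by omega)
  have e1 : m ^ 2 + ((m + 1) ^ 2 - 1) = 2 * m * (m + 1) := by
    have : (m + 1) ^ 2 - 1 = m * m + 2 * m := by
      have : (m + 1) ^ 2 = m * m + 2 * m + 1 := by ring
      omega
    rw [this]; ring
  have e2 : (m ^ 2 - 1) + (m + 1) ^ 2 = 2 * m * (m + 1) := by
    have h1 : 1 ≤ m ^ 2 := Nat.one_le_pow _ _ hm
    have h3 : m ^ 2 + (m + 1) ^ 2 = 2 * m * (m + 1) + 1 := by ring
    omega
  exact ((hN.mul hD').of_eq e1 rfl).sub ((hD.mul hN').of_eq e2 rfl) |>.of_eq rfl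
    (by push_cast; ring)

/-- The leading coefficient of `psi W m` is `2m + 1`. -/
theorem leadingCoeff_psi (W : WeierstrassCurve R) {m : ℕ} (hm : 1 ≤ m)
    (hn : ((2 * m + 1 : ℕ) : R) ≠ 0) : (psi W m).leadingCoeff = ((2 * m + 1 : ℕ) : R) := by
  obtain ⟨h1, h2⟩ := degCoeff_psi W hm
  have h3 := le_antisymm h1 (le_natDegree_of_ne_zero (h2 ▸ hn))
  rw [leadingCoeff, h3, h2]

/-- `psi W m` is a nonzero polynomial. -/
theorem psi_ne_zero (W : WeierstrassCurve R) {m : ℕ} (hm : 1 ≤ m)
    (hn : ((2 * m + 1 : ℕ) : R) ≠ 0) : psi W m ≠ 0 := by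
  intro h
  have := (degCoeff_psi W hm).2
  rw [h, coeff_zero] at this
  exact hn this.symm

theorem coeff_psi_mem {K : Type*} [Field K] (A : Subring K) (W : WeierstrassCurve ℤ) (m i : ℕ) :
    (psi (W.map (Int.castRingHom K)) m).coeff i ∈ A := by
  rw [psi_map, coeff_map]
  exact intCast_mem A _

/-- The abscissa of an `n`-torsion point is a root of `psi`. -/
theorem psi_isRoot {F : Type*} [Field F] [DecidableEq F] {V : WeierstrassCurve.Affine F} {m : ℕ}
    {x y : F} {h : V.Nonsingular x y}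
    (hP : (2 * m + 1) • (Affine.Point.some x y h : V.Point) = 0) :
    (psi (V : WeierstrassCurve F) m).IsRoot x := by
  have := (EC.nsmul_eq_zero_iff h (2 * m + 1)).1 hP
  rw [← psi_sq, eval_pow] at this
  exact (pow_eq_zero_iff two_ne_zero).1 this

end Fermat.Agent.Frey
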