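import Fermat.Prelude.Def_FLTPrelim_Modularity
import Fermat.Prelude.Def_FLTPrelim_Ramification
import Fermat.Prelude.Def_FreyPackage_GaloisRep
import Fermat.Agent.EC.TorsionCard
import Fermat.Agent.Frey.FreyModel
import Fermat.Agent.Frey.Gauss
import Fermat.Agent.Frey.Inertia
import Fermat.Agent.Frey.Psi
import Fermat.Agent.Gal.Basic

/-!
Inertia on `E[p]` for a semistable integral model `W`, `p` odd:
* away from `p`, `(σ - 1)² = 0`;
* at `p`, a stable line is either fixed pointwise by the whole inertia group, or cofixed.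
-/

noncomputable section

namespace Fermat.Agent.Frey

open WeierstrassCurve WeierstrassCurve.Affine WeierstrassCurve.Affine.Point
open scoped WeierstrassCurve.Affine Pointwise

local notation "Qbar" => AlgebraicClosure ℚ
local notation "GQ" => AlgebraicClosure ℚ ≃ₐ[ℚ] AlgebraicClosure ℚ

/-- The curve over `ℚ̄` attached to an integral model. -/
abbrev barCurve (W : WeierstrassCurve ℤ) : WeierstrassCurve.Affine Qbar :=
  (W.map (Int.castRingHom ℚ))⁄Qbar

theorem barCurve_eq (W : WeierstrassCurve ℤ) :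
    barCurve W = W.map (Int.castRingHom Qbar) := by
  ext <;> simp

/-- `E[n]`. -/
abbrev Tors (W : WeierstrassCurve ℤ) (n : ℕ) :=
  Submodule.torsionBy ℤ (barCurve W).Point (n : ℤ)

theorem tors_nsmul {W : WeierstrassCurve ℤ} {n : ℕ} (P : Tors W n) :
    n • (P : (barCurve W).Point) = 0 := by
  have := (Submodule.mem_torsionBy_iff _ _).1 P.2
  rwa [natCast_zsmul] at this

/-- Every algebraic number is periodic under a Galois automorphism. -/
theorem periodic_algEquiv (σ : GQ) (x : Qbar) : ∃ n : ℕ, 0 < n ∧ (⇑σ)^[n] x = x := by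
  classical
  have hx : IsIntegral ℚ x := Algebra.IsIntegral.isIntegral x
  have hroot : ∀ i, (⇑σ)^[i] x ∈ (minpoly ℚ x).rootSet Qbar := by
    intro i
    rw [Polynomial.mem_rootSet]
    refine ⟨minpoly.ne_zero hx, ?_⟩
    induction i with
    | zero => simp
    | succ i ih =>
      rw [Function.iterate_succ_apply', Polynomial.aeval_algHom_apply]
      rw [ih, _root_.map_zero]
  obtain ⟨i, j, hij, e⟩ : ∃ i j : ℕ, i < j ∧ (⇑σ)^[i] x = (⇑σ)^[j] x := by
    obtain ⟨i, -, j, -, hne, e⟩ := Set.Infinite.exists_ne_map_eq_of_mapsTo Set.infinite_univ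
      (fun i _ => hroot i) ((minpoly ℚ x).rootSet_finite Qbar)
    rcases lt_or_gt_of_ne hne with h | h
    · exact ⟨i, j, h, e⟩
    · exact ⟨j, i, h, e.symm⟩
  refine ⟨j - i, by omega, (σ.injective.iterate i) ?_⟩
  rw [← Function.iterate_add_apply, Nat.add_sub_cancel' hij.le, ← e]

/-- An element of the inertia group at `A` is inertia-like. -/
theorem inertiaLike {A : ValuationSubring Qbar} {σ : GQ} (hσ : σ ∈ A.inertiaSubgroupIn ℚ) :
    InertiaLike A (σ : Qbar ≃+* Qbar) := by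
  obtain ⟨hd, hres⟩ := Gal.mem_inertia_iff.1 hσ
  refine ⟨fun x => ?_, hres, periodic_algEquiv σ⟩
  exact Gal.mem_decomposition_iff.1 hd x

variable {W : WeierstrassCurve ℤ} {p : ℕ}

theorem coe_smul_tors (σ : GQ) (P : Tors W p) :
    ((σ • P : Tors W p) : (barCurve W).Point) = Point.map σ.toAlgHom P.1 := rfl

theorem map_spec (σ : GQ) (x y : Qbar) (h : (barCurve W).Nonsingular x y) :
    ∃ h', Point.map σ.toAlgHom (.some x y h : (barCurve W).Point)
      = (.some ((σ : Qbar ≃+* Qbar) x) ((σ : Qbar ≃+* Qbar) y) h' : (barCurve W).Point) :=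
  ⟨_, Point.map_some σ.toAlgHom h⟩

section Place

variable {A : ValuationSubring Qbar} {ℓ : ℕ}

/-- Away from `p`, no `p`-torsion reduces to `O`. -/
theorem eq_zero_of_far_ne (hℓ : ℓ.Prime) (hA : A.LiesOverPrime ℓ) (hp : p.Prime) (hp2 : p ≠ 2)
    (hℓp : ℓ ≠ p) {P : (barCurve W).Point} (hP : p • P = 0) (hF : Far (barCurve W) A P) :
    P = 0 := by
  cases P with
  | zero => rfl
  | some x y h =>
    exfalso
    obtain ⟨m, rfl⟩ := hp.odd_of_ne_two hp2
    have hm : 1 ≤ m := by have := hp.two_le; omega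
    have hn : ((2 * m + 1 : ℕ) : Qbar) ≠ 0 := Nat.cast_ne_zero.2 (by omega)
    refine hF (mem_of_isRoot (f := psi (barCurve W) m) ?_ ?_ (psi_isRoot hP))
    · intro i
      rw [barCurve_eq]
      exact coeff_psi_mem A.toSubring W m i
    · rw [leadingCoeff_psi _ hm hn]
      refine isU_of_mem (natCast_mem A _) fun hmem => hℓp ?_
      have : (ℓ : ℤ) ∣ ((2 * m + 1 : ℕ) : ℤ) :=
        (Gal.intCast_mem_nonunits_iff hℓ hA _).1 (by simpa using hmem)
      exact (Nat.prime_dvd_prime_iff_eq hℓ hp).1 (Int.natCast_dvd_natCast.1 this)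

/-- Away from `p`: `(σ - 1)² = 0` on `E[p]`. -/
theorem inertia_unipotent (hΔ : W.Δ ≠ 0) (hss : W.IsSemistableModel) (hℓ : ℓ.Prime)
    (hA : A.LiesOverPrime ℓ) (hp : p.Prime) (hp2 : p ≠ 2) (hℓp : ℓ ≠ p) {σ : GQ}
    (hσ : σ ∈ A.inertiaSubgroupIn ℚ) (P : Tors W p) : σ • (σ • P - P) = σ • P - P := by
  refine Subtype.ext (sub_eq_zero.1 ?_)
  rw [coe_smul_tors, Submodule.coe_sub, coe_smul_tors]
  refine eq_zero_of_far_ne hℓ hA hp hp2 hℓp ?_ (far_sub_sub W hℓ
    (Gal.intCast_mem_nonunits_iff hℓ hA) hΔ (hss ℓ hℓ) (barCurve_eq W) (inertiaLike hσ)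
    (Point.map σ.toAlgHom) (map_spec σ) (hp.odd_of_ne_two hp2) (tors_nsmul P))
  rw [nsmul_sub, ← map_nsmul, nsmul_sub, ← map_nsmul, tors_nsmul, _root_.map_zero, sub_zero,
    _root_.map_zero, sub_zero]

variable [Fact p.Prime]

theorem finrank_tors (hΔ : W.Δ ≠ 0) : Module.finrank (ZMod p) (Tors W p) = 2 := by
  have := isElliptic_mapRat hΔ
  exact EC.finrank_torsionBy (K := Qbar) (W.map (Int.castRingHom ℚ)) p
    (Nat.cast_ne_zero.2 (Fact.out : p.Prime).ne_zero)

theorem finite_tors (hΔ : W.Δ ≠ 0) : Finite (Tors W p) := by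
  have := isElliptic_mapRat hΔ
  exact EC.finite_torsionBy (K := Qbar) (W.map (Int.castRingHom ℚ)) p
    (Nat.cast_ne_zero.2 (Fact.out : p.Prime).ne_zero)

variable {N : Submodule (ZMod p) (Tors W p)}

theorem finrank_line (hΔ : W.Δ ≠ 0) (hbot : N ≠ ⊥) (htop : N ≠ ⊤) :
    Module.finrank (ZMod p) N = 1 := by
  have := finite_tors (p := p) hΔ
  have h2 := finrank_tors (p := p) hΔ
  have h1 : Module.finrank (ZMod p) N < 2 := h2 ▸ Submodule.finrank_lt htop
  have h0 : Module.finrank (ZMod p) N ≠ 0 := fun h => hbot (Submodule.finrank_eq_zero.1 h)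
  omega

/-- A line of `E[p]` is spanned by any of its nonzero elements. -/
theorem exists_smul_eq_of_mem (hΔ : W.Δ ≠ 0) (hbot : N ≠ ⊥) (htop : N ≠ ⊤) {z w : Tors W p}
    (hz : z ∈ N) (hz0 : z ≠ 0) (hw : w ∈ N) : ∃ c : ZMod p, c • z = w := by
  obtain ⟨c, hc⟩ := exists_smul_eq_of_finrank_eq_one (finrank_line hΔ hbot htop)
    (x := (⟨z, hz⟩ : N)) (by simpa using hz0) ⟨w, hw⟩
  exact ⟨c, congrArg Subtype.val hc⟩

/-- For `v ∉ N`, every point is `a • v` modulo `N`. -/
theorem exists_smul_sub_mem (hΔ : W.Δ ≠ 0) (hbot : N ≠ ⊥) (htop : N ≠ ⊤) {v : Tors W p}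
    (hv : v ∉ N) (P : Tors W p) : ∃ a : ZMod p, P - a • v ∈ N := by
  have := finite_tors (p := p) hΔ
  have hlt : N < N ⊔ Submodule.span (ZMod p) {v} := by
    refine lt_of_le_of_ne le_sup_left fun e => hv ?_
    rw [e]; exact Submodule.mem_sup_right (Submodule.mem_span_singleton_self v)
  have h1 := Submodule.finrank_lt_finrank_of_lt hlt
  rw [finrank_line hΔ hbot htop] at h1
  have htop' : N ⊔ Submodule.span (ZMod p) {v} = ⊤ := by
    refine Submodule.eq_top_of_finrank_eq ?_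
    have := Submodule.finrank_le (N ⊔ Submodule.span (ZMod p) {v})
    have := finrank_tors (p := p) hΔ
    omega
  obtain ⟨n, hn, w, hw, e⟩ := Submodule.mem_sup.1 (htop' ▸ Submodule.mem_top : P ∈ N ⊔ _)
  obtain ⟨a, rfl⟩ := Submodule.mem_span_singleton.1 hw
  exact ⟨a, by rw [← e, add_sub_cancel_right]; exact hn⟩

theorem far_smul {z : Tors W p} (c : ZMod p) (h : Far (barCurve W) A z.1) :
    Far (barCurve W) A (c • z).1 := by
  have e : (c • z).1 = c.val • z.1 := by
    conv_lhs => rw [← ZMod.natCast_zmod_val c, Nat.cast_smul_eq_nsmul]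
    rfl
  rw [e]
  have hW := intCoeff_map W A (barCurve_eq W)
  exact (mem_farSubgroup hW).1 (AddSubgroup.nsmul_mem _ ((mem_farSubgroup hW).2 h) _)

theorem smul_zmod_comm (σ : GQ) (c : ZMod p) (z : Tors W p) : σ • (c • z) = c • (σ • z) :=
  (galoisRep (S := ℚ) (K := Qbar) (W.map (Int.castRingHom ℚ)) p σ).map_smul c z

/-- At `p`: if a stable line contains a point reducing to `O`, it contains all of them. -/
theorem mem_of_far (hΔ : W.Δ ≠ 0) (hA : A.LiesOverPrime p) (hp2 : p ≠ 2)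
    (hst : IsGaloisStable ℚ N) (hbot : N ≠ ⊥) (htop : N ≠ ⊤) {z : Tors W p} (hz : z ∈ N)
    (hz0 : z ≠ 0) (hzF : Far (barCurve W) A z.1) {P : Tors W p}
    (hPF : Far (barCurve W) A P.1) : P ∈ N := by
  classical
  obtain ⟨m, hm'⟩ := (Fact.out : p.Prime).odd_of_ne_two hp2
  have hm : 1 ≤ m := by have := (Fact.out : p.Prime).two_le; omega
  have hn : ((2 * m + 1 : ℕ) : Qbar) ≠ 0 := Nat.cast_ne_zero.2 (by omega)
  set f := psi (barCurve W) m with hfdef
  have hroot : ∀ (Q : Tors W p) {x y : Qbar} {h : (barCurve W).Nonsingular x y},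
      Q.1 = .some x y h → f.IsRoot x := by
    intro Q x y h e
    exact psi_isRoot (h := h) (by rw [← hm', ← e]; exact tors_nsmul Q)
  set S := f.roots.toFinset.filter
    fun x => ∃ Q ∈ N, ∃ y h, (Q : Tors W p).1 = Point.some x y h with hSdef
  have hf0 : f ≠ 0 := psi_ne_zero _ hm hn
  have hSroot : ∀ x ∈ S, f.IsRoot x := fun x hx =>
    (Polynomial.mem_roots hf0).1 (Multiset.mem_toFinset.1 (Finset.mem_filter.1 hx).1)
  have hSfar : ∀ x ∈ S, x ∉ A := by
    intro x hx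
    obtain ⟨-, Q, hQ, y, h, e⟩ := Finset.mem_filter.1 hx
    obtain ⟨c, rfl⟩ := exists_smul_eq_of_mem hΔ hbot htop hz hz0 hQ
    have := far_smul c hzF
    rw [e] at this
    exact this
  have memS : ∀ (Q : Tors W p), Q ∈ N → ∀ {x y : Qbar} {h : (barCurve W).Nonsingular x y},
      Q.1 = .some x y h → x ∈ S := fun Q hQ x y h e =>
    Finset.mem_filter.2 ⟨Multiset.mem_toFinset.2 ((Polynomial.mem_roots hf0).2 (hroot Q e)),
      Q, hQ, y, h, e⟩
  have hSne : S.Nonempty := by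
    obtain ⟨z, hzt⟩ := z
    cases z with
    | zero => exact absurd rfl hz0
    | some x y h => exact ⟨x, memS _ hz rfl⟩
  have hfix : ∀ σ : GQ, σ (∏ x ∈ S, x) = ∏ x ∈ S, x := by
    intro σ
    rw [map_prod]
    refine Finset.prod_nbij σ (fun x hx => ?_) σ.injective.injOn ?_ (fun x _ => rfl)
    · obtain ⟨-, Q, hQ, y, h, e⟩ := Finset.mem_filter.1 hx
      refine memS (σ • Q) (hst σ Q hQ) (y := σ y) (h := (map_spec σ x y h).1) ?_
      rw [coe_smul_tors, e]
      exact (map_spec σ x y h).2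
    · intro x hx
      obtain ⟨-, Q, hQ, y, h, e⟩ := Finset.mem_filter.1 hx
      refine ⟨σ⁻¹ x, memS (σ⁻¹ • Q) (hst σ⁻¹ Q hQ) (y := σ⁻¹ y) (h := (map_spec σ⁻¹ x y h).1) ?_,
        σ.apply_symm_apply x⟩
      rw [coe_smul_tors, e]
      exact (map_spec σ⁻¹ x y h).2
  obtain ⟨q, hq⟩ := Gal.exists_rat_of_fixed hfix
  obtain ⟨P, hPt⟩ := P
  cases P with
  | zero => exact N.zero_mem
  | some x y h =>
    by_contra hPN
    refine hPF ?_
    refine mem_of_rat_prod (f := f) (Gal.intCast_mem_nonunits_iff Fact.out hA) ?_ ?_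
      (Fact.out : p.Prime).ne_zero hSroot (prod_not_mem hSne hSfar) hq ?_ (hroot ⟨_, hPt⟩ rfl)
    · intro i
      rw [hfdef, barCurve_eq]
      exact coeff_psi_mem A.toSubring W m i
    · rw [hfdef, leadingCoeff_psi _ hm hn, hm']
    · intro hxS
      obtain ⟨-, Q, hQ, y', h', e⟩ := Finset.mem_filter.1 hxS
      rcases (Point.X_eq_iff (h₁ := h) (h₂ := h')).1 rfl with e' | e'
      · exact hPN (by
          have : (⟨_, hPt⟩ : Tors W p) = Q := Subtype.ext (e'.trans e.symm)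
          rw [this]; exact hQ)
      · exact hPN (by
          have : (⟨_, hPt⟩ : Tors W p) = -Q :=
            Subtype.ext (e'.trans (by rw [NegMemClass.coe_neg, e]))
          rw [this]; exact N.neg_mem hQ)

/-- At `p`: inertia fixes the line pointwise, or is trivial on the quotient. -/
theorem inertia_at_p (hΔ : W.Δ ≠ 0) (hss : W.IsSemistableModel) (hA : A.LiesOverPrime p)
    (hp2 : p ≠ 2) (hst : IsGaloisStable ℚ N) (hbot : N ≠ ⊥) (htop : N ≠ ⊤) :
    (∀ σ ∈ A.inertiaSubgroupIn ℚ, ∀ x ∈ N, σ • x = x) ∨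
      (∀ σ ∈ A.inertiaSubgroupIn ℚ, ∀ x : Tors W p, σ • x - x ∈ N) := by
  have hp : p.Prime := Fact.out
  have key : ∀ σ ∈ A.inertiaSubgroupIn ℚ, ∀ Q : Tors W p,
      Far (barCurve W) A (σ • (σ • Q - Q) - (σ • Q - Q) : Tors W p).1 := fun σ hσ Q =>
    far_sub_sub W hp (Gal.intCast_mem_nonunits_iff hp hA) hΔ (hss p hp) (barCurve_eq W)
      (inertiaLike hσ) (Point.map σ.toAlgHom) (map_spec σ) (hp.odd_of_ne_two hp2) (tors_nsmul Q)
  by_cases hz : ∃ z ∈ N, z ≠ 0 ∧ Far (barCurve W) A (z : Tors W p).1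
  · right
    obtain ⟨z, hzN, hz0, hzF⟩ := hz
    intro σ hσ P
    by_contra hPN
    have hvN : P ∉ N := fun h => hPN (N.sub_mem (hst σ P h) h)
    obtain ⟨a, ha⟩ := exists_smul_sub_mem hΔ hbot htop hvN (σ • P - P)
    have hn : σ • (σ • P - P) - (σ • P - P) ∈ N :=
      mem_of_far hΔ hA hp2 hst hbot htop hzN hz0 hzF (key σ hσ P)
    set R := σ • P - P with hR
    have e : σ • R - R = (σ • (R - a • P) - (R - a • P)) + a • R := by
      have h1 : σ • (R - a • P) = σ • R - a • (σ • P) := by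
        rw [sub_eq_add_neg R, smul_add, smul_neg, smul_zmod_comm, ← sub_eq_add_neg]
      have h2 : a • R = a • (σ • P) - a • P := by rw [hR, smul_sub]
      rw [h1, h2]; abel
    rw [e] at hn
    have haR : a • R ∈ N := (N.add_mem_iff_right (N.sub_mem (hst σ _ ha) ha)).1 hn
    by_cases ha0 : a = 0
    · rw [ha0, zero_smul, sub_zero] at ha
      exact hPN ha
    · exact hPN (by simpa [smul_smul, inv_mul_cancel₀ ha0] using N.smul_mem a⁻¹ haR)
  · left
    intro σ hσ Q hQ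
    by_contra hne
    push Not at hz
    have hR : σ • Q - Q ≠ 0 := sub_ne_zero.2 hne
    have hRN : σ • Q - Q ∈ N := N.sub_mem (hst σ Q hQ) hQ
    have hQ0 : Q ≠ 0 := by rintro rfl; exact hne (smul_zero σ)
    obtain ⟨c, hc⟩ := exists_smul_eq_of_mem hΔ hbot htop hQ hQ0 hRN
    have hc0 : c ≠ 0 := by rintro rfl; exact hR (by rw [← hc, zero_smul])
    have e : σ • (σ • Q - Q) - (σ • Q - Q) = (c * c) • Q := by
      rw [← hc, smul_zmod_comm, ← smul_sub c, ← hc, smul_smul]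
    refine hz _ (N.smul_mem (c * c) hQ) ?_ (e ▸ key σ hσ Q)
    exact smul_ne_zero (mul_ne_zero hc0 hc0) hQ0

end Place

end Fermat.Agent.Frey
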