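import Fermat.Agent.EC.TorsionGalois
import Fermat.Agent.Frey.Local
import Fermat.Agent.Gal.FiniteLevel

/-!
Semistable curves over `ℚ`: a Galois-stable line in `E[p]` (`p` odd) is fixed pointwise or cofixed.
-/

noncomputable section

namespace Fermat.Agent.Frey

open WeierstrassCurve WeierstrassCurve.Affine WeierstrassCurve.Affine.Point
open scoped WeierstrassCurve.Affine Pointwise

local notation "Qbar" => AlgebraicClosure ℚ
local notation "GQ" => AlgebraicClosure ℚ ≃ₐ[ℚ] AlgebraicClosure ℚ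

/-- An open subgroup of the Galois group of `ℚ̄/ℚ` containing every inertia group is everything. -/
theorem eq_top_of_inertia_le (H : Subgroup GQ) (hH : IsOpen (H : Set GQ))
    (h : ∀ ℓ : ℕ, ℓ.Prime → ∀ A : ValuationSubring Qbar, A.LiesOverPrime ℓ →
      ∀ σ ∈ A.inertiaSubgroupIn ℚ, σ ∈ H) : H = ⊤ := by
  let C : ClosedSubgroup GQ := ⟨H, H.isClosed_of_isOpen hH⟩
  have hfix : (IntermediateField.fixedField H).fixingSubgroup = H :=
    InfiniteGalois.fixingSubgroup_fixedField C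
  have hfin : FiniteDimensional ℚ (IntermediateField.fixedField H) :=
    (InfiniteGalois.isOpen_iff_finite _).1 (by rw [hfix]; exact hH)
  have hbot := Gal.intermediateField_eq_bot_of_unramified (IntermediateField.fixedField H)
    fun ℓ hℓ A hA σ hσ x hx => hx ⟨σ, h ℓ hℓ A hA σ hσ⟩
  rw [← hfix, hbot, IntermediateField.fixingSubgroup_bot]

variable {W : WeierstrassCurve ℤ} {p : ℕ} [Fact p.Prime]
variable {N : Submodule (ZMod p) (Tors W p)}

/-- The subgroup fixing `N` pointwise. -/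
def fixSubgroup (N : Submodule (ZMod p) (Tors W p)) : Subgroup GQ where
  carrier := {σ | ∀ x ∈ N, σ • x = x}
  one_mem' x _ := one_smul _ x
  mul_mem' {σ τ} hσ hτ x hx := by rw [mul_smul, hτ x hx, hσ x hx]
  inv_mem' {σ} hσ x hx := by
    conv_lhs => rw [← hσ x hx]
    exact inv_smul_smul σ x

/-- The subgroup acting trivially on the quotient by `N`. -/
def cofixSubgroup (N : Submodule (ZMod p) (Tors W p)) : Subgroup GQ where
  carrier := {σ | ∀ x : Tors W p, σ • x - x ∈ N}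
  one_mem' x := by rw [one_smul, sub_self]; exact N.zero_mem
  mul_mem' {σ τ} hσ hτ x := by
    have e : (σ * τ) • x - x = (σ • (τ • x) - τ • x) + (τ • x - x) := by rw [mul_smul]; abel
    rw [e]; exact N.add_mem (hσ _) (hτ x)
  inv_mem' {σ} hσ x := by
    have e : σ⁻¹ • x - x = -(σ • (σ⁻¹ • x) - σ⁻¹ • x) := by rw [smul_inv_smul]; abel
    rw [e]; exact N.neg_mem (hσ _)

theorem mem_fixSubgroup {σ : GQ} : σ ∈ fixSubgroup N ↔ ∀ x ∈ N, σ • x = x := by rfl

theorem mem_cofixSubgroup {σ : GQ} :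
    σ ∈ cofixSubgroup N ↔ ∀ x : Tors W p, σ • x - x ∈ N := by rfl

theorem conj_mem_fix (hst : IsGaloisStable ℚ N) (g : GQ) {σ : GQ} (h : σ ∈ fixSubgroup N) :
    g * σ * g⁻¹ ∈ fixSubgroup N := by
  rw [mem_fixSubgroup]
  intro x hx
  rw [mul_smul, mul_smul, mem_fixSubgroup.1 h _ (hst g⁻¹ x hx), smul_inv_smul]

theorem conj_mem_cofix (hst : IsGaloisStable ℚ N) (g : GQ) {σ : GQ}
    (h : σ ∈ cofixSubgroup N) : g * σ * g⁻¹ ∈ cofixSubgroup N := by
  rw [mem_cofixSubgroup]
  intro x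
  have e : (g * σ * g⁻¹) • x - x = g • (σ • (g⁻¹ • x) - g⁻¹ • x) := by
    rw [smul_sub, smul_inv_smul, mul_smul, mul_smul]
  rw [e]
  exact hst g _ (mem_cofixSubgroup.1 h _)

/-- A subgroup containing the kernel of the action on the torsion points is open. -/
theorem isOpen_of_kernel_le (hΔ : W.Δ ≠ 0) (H : Subgroup GQ)
    (h : ∀ σ : GQ, (∀ x : Tors W p, σ • x = x) → σ ∈ H) : IsOpen (H : Set GQ) := by
  have := isElliptic_mapRat hΔ
  refine Subgroup.isOpen_mono (H₁ := (Affine.Point.galoisRep (S := ℚ) (K := Qbar)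
    (W.map (Int.castRingHom ℚ)) p).ker) (fun σ hσ => h σ fun x => ?_)
    (EC.isOpen_ker_galoisRep (W.map (Int.castRingHom ℚ)) p (Fact.out : p.Prime).ne_zero)
  exact LinearEquiv.congr_fun (MonoidHom.mem_ker.1 hσ) x

/-- Away from `p`, inertia fixes a stable line pointwise and is trivial on the quotient. -/
theorem inertia_mem_fix_cofix (hΔ : W.Δ ≠ 0) (hss : W.IsSemistableModel) (hp2 : p ≠ 2)
    (hst : IsGaloisStable ℚ N) (hbot : N ≠ ⊥) (htop : N ≠ ⊤) {ℓ : ℕ} (hℓ : ℓ.Prime) (hne : ℓ ≠ p)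
    {A : ValuationSubring Qbar} (hA : A.LiesOverPrime ℓ) {σ : GQ}
    (hσ : σ ∈ A.inertiaSubgroupIn ℚ) : σ ∈ fixSubgroup N ∧ σ ∈ cofixSubgroup N := by
  have huni := inertia_unipotent hΔ hss hℓ hA (Fact.out : p.Prime) hp2 hne hσ
  rw [mem_fixSubgroup, mem_cofixSubgroup]
  constructor
  · intro x hx
    by_contra hx'
    have hx0 : x ≠ 0 := by rintro rfl; exact hx' (smul_zero σ)
    obtain ⟨c, hc⟩ := exists_smul_eq_of_mem hΔ hbot htop hx hx0
      (N.sub_mem (hst σ x hx) hx : σ • x - x ∈ N)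
    have h1 := huni x
    rw [← hc, smul_zmod_comm, ← sub_eq_zero, ← smul_sub c, ← hc, smul_smul] at h1
    rcases smul_eq_zero.1 h1 with h2 | h2
    · rw [mul_self_eq_zero.1 h2, zero_smul] at hc
      exact hx' (sub_eq_zero.1 hc.symm)
    · exact hx0 h2
  · intro x
    by_contra hx
    have hxN : x ∉ N := fun h => hx (N.sub_mem (hst σ x h) h)
    obtain ⟨a, ha⟩ := exists_smul_sub_mem hΔ hbot htop hxN (σ • x - x)
    set R := σ • x - x with hR
    have e : σ • R - R = (σ • (R - a • x) - (R - a • x)) + a • R := by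
      have h1 : σ • (R - a • x) = σ • R - a • (σ • x) := by
        rw [sub_eq_add_neg R, smul_add, smul_neg, smul_zmod_comm, ← sub_eq_add_neg]
      have h2 : a • R = a • (σ • x) - a • x := by rw [hR, smul_sub]
      rw [h1, h2]; abel
    rw [huni x, sub_self] at e
    have haR : a • R ∈ N :=
      (N.add_mem_iff_right (N.sub_mem (hst σ _ ha) ha)).1 (e ▸ N.zero_mem)
    by_cases ha0 : a = 0
    · rw [ha0, zero_smul, sub_zero] at ha
      exact hx ha
    · exact hx (by simpa [smul_smul, inv_mul_cancel₀ ha0] using N.smul_mem a⁻¹ haR)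

/-- A normal subgroup containing inertia at one place over `p` contains it at all of them. -/
theorem inertia_le_of_conj {H : Subgroup GQ} (hconj : ∀ (g : GQ), ∀ σ ∈ H, g * σ * g⁻¹ ∈ H)
    {A₀ : ValuationSubring Qbar} (hA₀ : A₀.LiesOverPrime p)
    (h0 : ∀ σ ∈ A₀.inertiaSubgroupIn ℚ, σ ∈ H) {A : ValuationSubring Qbar}
    (hA : A.LiesOverPrime p) : ∀ σ ∈ A.inertiaSubgroupIn ℚ, σ ∈ H := by
  intro σ hσ
  obtain ⟨g, hg⟩ := Gal.exists_smul_eq (Fact.out : p.Prime) hA₀ hA
  subst hg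
  have := Gal.conj_mem_inertia hσ g⁻¹
  rw [inv_smul_smul, inv_inv] at this
  have := hconj g _ (h0 _ this)
  rwa [show g * (g⁻¹ * σ * g) * g⁻¹ = σ by group] at this

/-- A Galois-stable line of a semistable curve is fixed pointwise or cofixed. -/
theorem line_fixed_or_cofixed (hΔ : W.Δ ≠ 0) (hss : W.IsSemistableModel) (hp2 : p ≠ 2)
    (hst : IsGaloisStable ℚ N) (hbot : N ≠ ⊥) (htop : N ≠ ⊤) :
    (∀ σ : GQ, ∀ x ∈ N, σ • x = x) ∨ (∀ σ : GQ, ∀ x : Tors W p, σ • x - x ∈ N) := by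
  have hp : p.Prime := Fact.out
  obtain ⟨A₀, hA₀⟩ := Gal.exists_liesOverPrime hp
  rcases inertia_at_p hΔ hss hA₀ hp2 hst hbot htop with h | h
  · left
    have htop' : fixSubgroup N = ⊤ := by
      refine eq_top_of_inertia_le _ (isOpen_of_kernel_le (p := p) hΔ _ fun σ hσ => ?_)
        fun ℓ hℓ A hA σ hσ => ?_
      · rw [mem_fixSubgroup]; exact fun x _ => hσ x
      · by_cases hne : ℓ = p
        · subst hne
          exact inertia_le_of_conj (fun g σ hσ => conj_mem_fix hst g hσ) hA₀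
            (fun σ hσ => mem_fixSubgroup.2 (h σ hσ)) hA σ hσ
        · exact (inertia_mem_fix_cofix hΔ hss hp2 hst hbot htop hℓ hne hA hσ).1
    intro σ
    exact mem_fixSubgroup.1 (htop' ▸ Subgroup.mem_top σ)
  · right
    have htop' : cofixSubgroup N = ⊤ := by
      refine eq_top_of_inertia_le _ (isOpen_of_kernel_le (p := p) hΔ _ fun σ hσ => ?_)
        fun ℓ hℓ A hA σ hσ => ?_
      · rw [mem_cofixSubgroup]; exact fun x => by rw [hσ x, sub_self]; exact N.zero_mem
      · by_cases hne : ℓ = p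
        · subst hne
          exact inertia_le_of_conj (fun g σ hσ => conj_mem_cofix hst g hσ) hA₀
            (fun σ hσ => mem_cofixSubgroup.2 (h σ hσ)) hA σ hσ
        · exact (inertia_mem_fix_cofix hΔ hss hp2 hst hbot htop hℓ hne hA hσ).2
    intro σ
    exact mem_cofixSubgroup.1 (htop' ▸ Subgroup.mem_top σ)

end Fermat.Agent.Frey
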