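import Mathlib.AlgebraicGeometry.EllipticCurve.Affine.Point
import Fermat.Agent.Frey.Valuation

/-!
Elementary reduction theory of points of a Weierstrass curve with coefficients in a valuation
subring: points reducing to `O` form a subgroup, and two points with the same nonsingular
reduction differ by a point reducing to `O`.
-/

namespace Fermat.Agent.Frey

open WeierstrassCurve WeierstrassCurve.Affine WeierstrassCurve.Affine.Point

variable {K : Type*} [Field K]

/-- The coefficients of `W` lie in `A`. -/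
structure IntCoeff (A : ValuationSubring K) (W : WeierstrassCurve K) : Prop where
  h1 : W.a₁ ∈ A
  h2 : W.a₂ ∈ A
  h3 : W.a₃ ∈ A
  h4 : W.a₄ ∈ A
  h6 : W.a₆ ∈ A

variable (W : WeierstrassCurve.Affine K)

/-- `∂F/∂x`. -/
def fX (x y : K) : K := W.a₁ * y - (3 * x ^ 2 + 2 * W.a₂ * x + W.a₄)

/-- `∂F/∂y`. -/
def fY (x y : K) : K := 2 * y + W.a₁ * x + W.a₃

/-- The point reduces to the origin `O` (or is `O`). -/
def Far (A : ValuationSubring K) : W.Point → Prop
  | .zero => True
  | .some x _ _ => x ∉ A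

/-- The point is affine and reduces to a singular point of the reduced curve. -/
def Sing (A : ValuationSubring K) : W.Point → Prop
  | .zero => False
  | .some x y _ => x ∈ A ∧ fX W x y ∈ A.nonunits ∧ fY W x y ∈ A.nonunits

variable {W} {A : ValuationSubring K}

theorem far_zero : Far W A 0 := trivial

theorem far_some {x y : K} {h : W.Nonsingular x y} : Far W A (.some x y h) ↔ x ∉ A := Iff.rfl

theorem sing_some {x y : K} {h : W.Nonsingular x y} :
    Sing W A (.some x y h) ↔ x ∈ A ∧ fX W x y ∈ A.nonunits ∧ fY W x y ∈ A.nonunits := Iff.rfl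

theorem not_sing_zero : ¬ Sing W A (0 : W.Point) := id

theorem far_neg {P : W.Point} : Far W A (-P) ↔ Far W A P := by
  cases P with
  | zero => exact Iff.rfl
  | some x y h => rw [Point.neg_some]; exact Iff.rfl

theorem not_far_iff {P : W.Point} : ¬ Far W A P ↔ ∃ x y h, P = .some x y h ∧ x ∈ A := by
  cases P with
  | zero => simp [Far]
  | some x y h =>
    simp only [far_some, not_not, Point.some.injEq]
    constructor
    · exact fun hx => ⟨x, y, h, ⟨rfl, rfl⟩, hx⟩
    · rintro ⟨_, _, _, ⟨rfl, rfl⟩, hx⟩; exact hx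

/-- The ordinate of a point with integral abscissa is integral. -/
theorem y_mem (hW : IntCoeff A W) {x y : K} (h : W.Equation x y) (hx : x ∈ A) : y ∈ A := by
  rw [equation_iff] at h
  refine mem_of_quadratic (b := W.a₁ * x + W.a₃)
    (c := -(x ^ 3 + W.a₂ * x ^ 2 + W.a₄ * x + W.a₆)) (by linear_combination h)
    (add_mem (mul_mem hW.h1 hx) hW.h3) (neg_mem ?_)
  exact add_mem (add_mem (add_mem (pow_mem hx 3) (mul_mem hW.h2 (pow_mem hx 2)))
    (mul_mem hW.h4 hx)) hW.h6

/-- The slope is not integral ⟹ the sum is not integral. -/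
theorem addX_not_mem (hW : IntCoeff A W) {x x' L : K} (hx : x ∈ A) (hx' : x' ∈ A)
    (hL : L ∉ A) : W.addX x x' L ∉ A := by
  intro h
  refine hL (mem_of_quadratic (b := W.a₁) (c := -(W.addX x x' L + W.a₂ + x + x')) ?_ hW.h1 ?_)
  · simp only [Affine.addX]; ring
  · exact neg_mem (add_mem (add_mem (add_mem h hW.h2) hx) hx')

variable [DecidableEq K]

/-- The sum of an integral point and a point reducing to `O` is integral. -/
theorem add_mem_of_far (hW : IntCoeff A W) {x₁ y₁ x₂ y₂ : K} (h₁ : W.Equation x₁ y₁)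
    (h₂ : W.Equation x₂ y₂) (hx₁ : x₁ ∈ A) (hx₂ : x₂ ∉ A) :
    W.addX x₁ x₂ (W.slope x₁ x₂ y₁ y₂) ∈ A := by
  have hy₁ := y_mem hW h₁ hx₁
  have hne : x₁ ≠ x₂ := fun h => hx₂ (h ▸ hx₁)
  have hx0 : x₂ ≠ 0 := fun h => hx₂ (h ▸ zero_mem A)
  rw [slope_of_X_ne hne]
  rw [equation_iff] at h₁ h₂
  set s := x₂⁻¹ with hs
  have hsm : s ∈ A.nonunits := inv_m_of_not_mem hx₂
  have hsx : s * x₂ = 1 := inv_mul_cancel₀ hx0
  have hsA := m_mem hsm
  set q := y₂ * s ^ 2 with hq
  have hqA : q ∈ A := by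
    refine mem_of_quadratic (b := W.a₁ * s + W.a₃ * s ^ 2)
      (c := -(s + W.a₂ * s ^ 2 + W.a₄ * s ^ 3 + W.a₆ * s ^ 4)) ?_
      (add_mem (mul_mem hW.h1 hsA) (mul_mem hW.h3 (pow_mem hsA 2))) (neg_mem ?_)
    · rw [hq, hs]; field_simp; linear_combination h₂
    · exact add_mem (add_mem (add_mem hsA (mul_mem hW.h2 (pow_mem hsA 2)))
        (mul_mem hW.h4 (pow_mem hsA 3))) (mul_mem hW.h6 (pow_mem hsA 4))
  have hd : IsU A (1 - x₁ * s) := by
    simpa [sub_eq_add_neg] using isU_one.add_m (m_neg (m_mul_left hx₁ hsm))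
  have hsub : (1 - x₁ * s) ≠ 0 := hd.ne_zero
  have key : W.addX x₁ x₂ ((y₁ - y₂) / (x₁ - x₂)) =
      (x₁ + (W.a₄ - W.a₁ * y₁ + x₁ ^ 2 + 2 * W.a₂ * x₁) * s +
        (W.a₄ * x₁ + 2 * W.a₆ - W.a₃ * y₁) * s ^ 2 - (W.a₃ + 2 * y₁ + W.a₁ * x₁) * q) /
      (1 - x₁ * s) ^ 2 := by
    have hne' : x₁ - x₂ ≠ 0 := sub_ne_zero.2 hne
    have hd' : (1 - x₁ * s) = -(x₁ - x₂) * s := by linear_combination -hsx
    rw [Affine.addX, hd', hq, hs]
    field_simp
    linear_combination h₁ + h₂
  rw [key]
  refine mem_div_of_isU ?_ (hd.pow 2)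
  have e2 : (2 : K) ∈ A := ofNat_mem A 2
  exact sub_mem (add_mem (add_mem hx₁ (mul_mem (add_mem (add_mem (sub_mem hW.h4
      (mul_mem hW.h1 hy₁)) (pow_mem hx₁ 2)) (mul_mem (mul_mem e2 hW.h2) hx₁)) hsA))
    (mul_mem (sub_mem (add_mem (mul_mem hW.h4 hx₁) (mul_mem e2 hW.h6)) (mul_mem hW.h3 hy₁))
      (pow_mem hsA 2)))
    (mul_mem (add_mem (add_mem hW.h3 (mul_mem e2 hy₁)) (mul_mem hW.h1 hx₁)) hqA)

/-- (integral) + (reducing to `O`) is integral. -/
theorem not_far_add (hW : IntCoeff A W) {P Q : W.Point} (hP : ¬ Far W A P) (hQ : Far W A Q) :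
    ¬ Far W A (P + Q) := by
  obtain ⟨x₁, y₁, h₁, rfl, hx₁⟩ := not_far_iff.1 hP
  cases Q with
  | zero =>
    rw [← Point.zero_def, add_zero]; exact hP
  | some x₂ y₂ h₂ =>
    have hne : x₁ ≠ x₂ := fun h => hQ (h ▸ hx₁)
    rw [Point.add_of_X_ne hne]
    simpa [Far] using add_mem_of_far hW h₁.1 h₂.1 hx₁ hQ

theorem far_add (hW : IntCoeff A W) {P Q : W.Point} (hP : Far W A P) (hQ : Far W A Q) :
    Far W A (P + Q) := by
  by_contra h
  exact not_far_add hW h (far_neg.2 hQ) (by simpa using hP)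

/-- The subgroup of points reducing to `O`. -/
def farSubgroup (hW : IntCoeff A W) : AddSubgroup W.Point where
  carrier := {P : W.Point | Far W A P}
  zero_mem' := show Far W A (0 : W.Point) from far_zero
  add_mem' := fun {P Q : W.Point} (hP : Far W A P) (hQ : Far W A Q) =>
    show Far W A (P + Q) from far_add hW hP hQ
  neg_mem' := fun {P : W.Point} (hP : Far W A P) => show Far W A (-P) from far_neg.2 hP

theorem mem_farSubgroup (hW : IntCoeff A W) {P : W.Point} :
    P ∈ farSubgroup hW ↔ Far W A P := by rfl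

/-- Two points with the same nonsingular reduction differ by a point reducing to `O`. -/
theorem far_sub_of_congr (hW : IntCoeff A W) {x y x' y' : K} {h : W.Nonsingular x y}
    {h' : W.Nonsingular x' y'} (hx : x ∈ A) (hdx : x' - x ∈ A.nonunits)
    (hdy : y' - y ∈ A.nonunits) (hns : ¬ (fX W x y ∈ A.nonunits ∧ fY W x y ∈ A.nonunits)) :
    Far W A (.some x' y' h' - .some x y h) := by
  have hy := y_mem hW h.1 hx
  have hx' : x' ∈ A := by simpa using add_mem (m_mem hdx) hx
  have hy' := y_mem hW h'.1 hx'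
  rw [sub_eq_add_neg, Point.neg_some]
  by_cases hxx : x' = x
  · subst hxx
    by_cases hyy : y' = y
    · subst hyy
      rw [Point.add_of_Y_eq rfl (negY_negY x' y').symm]
      exact far_zero
    · have hneg : y' = W.negY x' y :=
        (Y_eq_of_X_eq h'.1 h.1 rfl).resolve_left hyy
      have hfY : fY W x' y ∈ A.nonunits := by
        have e : fY W x' y = -(y' - y) := by rw [hneg, negY, fY]; ring
        exact e ▸ m_neg hdy
      have hfX : fX W x' y ∉ A.nonunits := fun e => hns ⟨e, hfY⟩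
      have hne : y' ≠ W.negY x' (W.negY x' y) := by rwa [negY_negY]
      rw [Point.add_of_Y_ne hne]
      refine addX_not_mem hW hx' hx' ?_
      rw [slope_of_Y_ne rfl hne]
      have hd : y' - W.negY x' y' = y' - y := by
        conv_lhs => rw [hneg, negY_negY]
        rw [← hneg]
      rw [hd]
      refine not_mem_div ?_ hdy (sub_ne_zero.2 hyy)
      intro hn
      refine hfX ?_
      have e : fX W x' y = -(3 * x' ^ 2 + 2 * W.a₂ * x' + W.a₄ - W.a₁ * y')
          - W.a₁ * (y' - y) := by rw [fX]; ring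
      rw [e]
      exact m_sub (m_neg hn) (m_mul_left hW.h1 hdy)
  · rw [Point.add_of_X_ne hxx]
    refine addX_not_mem hW hx' hx ?_
    rw [slope_of_X_ne hxx]
    have hd0 : x' - x ≠ 0 := sub_ne_zero.2 hxx
    have eqy : y' - W.negY x y = fY W x y + (y' - y) := by rw [negY, fY]; ring
    by_cases hfY : fY W x y ∈ A.nonunits
    · have hfX : fX W x y ∉ A.nonunits := fun e => hns ⟨e, hfY⟩
      have e1 := (W.equation_iff x y).1 h.1
      have e2 := (W.equation_iff x' y').1 h'.1
      set G := x' ^ 2 + x' * x + x ^ 2 + W.a₂ * (x' + x) + W.a₄ - W.a₁ * y with hG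
      have hGm : G ∉ A.nonunits := by
        intro hGm
        refine hfX ?_
        have e : fX W x y = -G + (x' - x) * (x' + 2 * x + W.a₂) := by rw [fX, hG]; ring
        rw [e]
        exact m_add (m_neg hGm) (m_mul_right hdx
          (add_mem (add_mem hx' (mul_mem (ofNat_mem A 2) hx)) hW.h2))
      have key : (y' - y) * (y' + y + W.a₁ * x' + W.a₃) = (x' - x) * G := by
        rw [hG]; linear_combination e2 - e1
      intro hL
      have hyne : y' - y ≠ 0 := by
        intro e0
        rw [e0, zero_mul] at key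
        exact (mul_ne_zero hd0 fun e => hGm (by rw [e]; exact m_zero)) key.symm
      have eL : (y' - W.negY x y) / (x' - x) + W.a₁ = G / (y' - y) := by
        rw [negY, div_add' _ _ _ hd0, div_eq_div_iff hd0 hyne]
        linear_combination key
      exact not_mem_div hGm hdy hyne (eL ▸ add_mem hL hW.h1)
    · refine not_mem_div ?_ hdx hd0
      rw [eqy]
      exact fun e => hfY (by simpa using m_sub e hdy)

end Fermat.Agent.Frey
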