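import Mathlib.Algebra.Order.Interval.Finset.Basic
import Mathlib.AlgebraicGeometry.EllipticCurve.Affine.Point
import Mathlib.Data.Int.Interval
import Mathlib.NumberTheory.Padics.PadicVal.Basic
import Fermat.Agent.Frey.Reduction

/-!
A curve `y² + xy = x³ + a₂x² + a₄x` over `ℚ` with `a₄ = 2^N · odd`, `p ∤ N`, has no rational point
of order `p ≥ 5` whose multiples are `2`-integral.

All such points reduce to the node at `2`, the values `d = v₂(x)` are `< N`, and the addition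
formulas for `x(P + Q) x(P - Q)` and `x(P - Q) - x(P + Q)` show that they are `g, 2g, …, hg` with
`2N = (2h+1)g`.
-/

namespace Fermat.Agent.Frey

open WeierstrassCurve WeierstrassCurve.Affine WeierstrassCurve.Affine.Point

/-! ### 2-adic valuations of rationals -/

section TwoAdic

variable {A : ValuationSubring ℚ}

local notation "v₂" => padicValRat 2

/-- The denominator of a 2-integral rational is odd. -/
theorem not_two_dvd_den_of_mem (hA : ∀ n : ℤ, (n : ℚ) ∈ A.nonunits ↔ (2 : ℤ) ∣ n) {q : ℚ}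
    (hq : q ∈ A) : ¬ (2 : ℤ) ∣ (q.den : ℤ) := by
  intro hd
  have hcop : IsCoprime q.num (q.den : ℤ) := Int.isCoprime_iff_gcd_eq_one.2 q.reduced
  have hn : ¬ (2 : ℤ) ∣ q.num := fun h => by
    have := hcop.isUnit_of_dvd' h hd
    simp [Int.isUnit_iff] at this
  refine hn ((hA _).1 ?_)
  have e : (q.num : ℚ) = q * ((q.den : ℤ) : ℚ) := by
    rw [Int.cast_natCast]; exact (Rat.mul_den_eq_num q).symm
  rw [e]; exact m_mul_left hq ((hA _).2 hd)

theorem eq_num_div_den (q : ℚ) : q = (q.num : ℚ) / ((q.den : ℤ) : ℚ) := by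
  rw [Int.cast_natCast, Rat.num_div_den]

/-- Membership in the 2-adic valuation ring in terms of `v₂`. -/
theorem mem_iff_v (hA : ∀ n : ℤ, (n : ℚ) ∈ A.nonunits ↔ (2 : ℤ) ∣ n) {q : ℚ} :
    q ∈ A ↔ 0 ≤ v₂ q := by
  have h2 : Fact (Nat.Prime 2) := ⟨Nat.prime_two⟩
  rw [padicValRat_def]
  by_cases hd : (2 : ℤ) ∣ (q.den : ℤ)
  · have hcop : IsCoprime q.num (q.den : ℤ) := Int.isCoprime_iff_gcd_eq_one.2 q.reduced
    have hn : ¬ (2 : ℤ) ∣ q.num := fun h => by
      have := hcop.isUnit_of_dvd' h hd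
      simp [Int.isUnit_iff] at this
    have h1 : q ∉ A := fun hqA => not_two_dvd_den_of_mem hA hqA hd
    have h3 : padicValInt 2 q.num = 0 := padicValInt.eq_zero_of_not_dvd hn
    have h4 : 1 ≤ padicValNat 2 q.den :=
      one_le_padicValNat_of_dvd q.den_nz (Int.natCast_dvd_natCast.1 hd)
    simp only [h1, h3, false_iff, not_le]
    omega
  · have hu : IsU A ((q.den : ℤ) : ℚ) := isU_of_mem (intCast_mem A _) fun h => hd ((hA _).1 h)
    have h1 : q ∈ A := eq_num_div_den q ▸ mem_div_of_isU (intCast_mem A _) hu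
    have h4 : padicValNat 2 q.den = 0 :=
      padicValNat.eq_zero_of_not_dvd fun h => hd (Int.natCast_dvd_natCast.2 h)
    simp only [h1, h4, true_iff]
    simp

/-- Membership in the maximal ideal in terms of `v₂`. -/
theorem m_iff_v (hA : ∀ n : ℤ, (n : ℚ) ∈ A.nonunits ↔ (2 : ℤ) ∣ n) {q : ℚ} (hq : q ≠ 0) :
    q ∈ A.nonunits ↔ 1 ≤ v₂ q := by
  have h2 : Fact (Nat.Prime 2) := ⟨Nat.prime_two⟩
  rw [A.mem_nonunits_iff_or, or_iff_right hq, mem_iff_v hA, padicValRat.inv]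
  omega

theorem v_eq_zero_of_isU (hA : ∀ n : ℤ, (n : ℚ) ∈ A.nonunits ↔ (2 : ℤ) ∣ n) {q : ℚ}
    (hq : IsU A q) : v₂ q = 0 := by
  have h1 := (mem_iff_v hA).1 hq.mem
  have h2 := (not_congr (m_iff_v hA hq.ne_zero)).1 hq.not_m
  omega

/-- The residue field at 2 has two elements. -/
theorem m_or_sub_one_m (hA : ∀ n : ℤ, (n : ℚ) ∈ A.nonunits ↔ (2 : ℤ) ∣ n) {q : ℚ}
    (hq : q ∈ A) : q ∈ A.nonunits ∨ q - 1 ∈ A.nonunits := by
  by_contra h
  rw [not_or] at h
  obtain ⟨h1, h2⟩ := h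
  have hd := not_two_dvd_den_of_mem hA hq
  have hu : IsU A ((q.den : ℤ) : ℚ) := isU_of_mem (intCast_mem A _) fun h => hd ((hA _).1 h)
  have key : (2 : ℤ) ∣ q.num ∨ (2 : ℤ) ∣ q.num - q.den := by omega
  rcases key with h | h
  · refine h1 ?_
    rw [eq_num_div_den q]; exact m_div_of_isU ((hA _).2 h) hu
  · refine h2 ?_
    have e : q - 1 = ((q.num - q.den : ℤ) : ℚ) / ((q.den : ℤ) : ℚ) := by
      rw [Int.cast_sub, sub_div, div_self hu.ne_zero, Int.cast_natCast, Rat.num_div_den]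
    rw [e]; exact m_div_of_isU ((hA _).2 h) hu

theorem min_v_le_v_sub {a b : ℚ} (h : a - b ≠ 0) : min (v₂ a) (v₂ b) ≤ v₂ (a - b) := by
  have : Fact (Nat.Prime 2) := ⟨Nat.prime_two⟩
  have := padicValRat.min_le_padicValRat_add (p := 2) (q := a) (r := -b)
    (by rwa [← sub_eq_add_neg])
  rwa [padicValRat.neg, ← sub_eq_add_neg] at this

theorem v_sub_eq_min {a b : ℚ} (h : a - b ≠ 0) (ha : a ≠ 0) (hb : b ≠ 0) (hne : v₂ a ≠ v₂ b) :
    v₂ (a - b) = min (v₂ a) (v₂ b) := by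
  have : Fact (Nat.Prime 2) := ⟨Nat.prime_two⟩
  have := padicValRat.add_eq_min (p := 2) (q := a) (r := -b) (by rwa [← sub_eq_add_neg]) ha
    (neg_ne_zero.2 hb) (by rwa [padicValRat.neg])
  rwa [padicValRat.neg, ← sub_eq_add_neg] at this

end TwoAdic

/-- The 2-adic valuation of the abscissa of an affine point, truncated to `ℕ` (`0` at `O`). -/
noncomputable def dval {E : WeierstrassCurve.Affine ℚ} : E.Point → ℕ
  | .zero => 0
  | .some x _ _ => (padicValRat 2 x).toNat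

theorem dval_neg {E : WeierstrassCurve.Affine ℚ} (P : E.Point) : dval (-P) = dval P := by
  cases P with
  | zero => rfl
  | some x y h => rw [Point.neg_some]; rfl

/-- If `T ⊆ [1, N)` has `h ≥ 2` elements and, with respect to some `g ∈ T`, each other `n ∈ T`
has `n - g ∈ T` and `n + g` or `2N - (n + g)` in `T`, then `T = {g, …, hg}` and `(2h+1)g = 2N`. -/
theorem two_mul_add_one_mul_eq {T : Finset ℕ} {g h N : ℕ} (hh : 2 ≤ h) (hcard : T.card = h)
    (hgT : g ∈ T) (hg : 1 ≤ g) (hlt : ∀ n ∈ T, n < N)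
    (step : ∀ n ∈ T, n ≠ g → g < n ∧ n - g ∈ T ∧ ∃ v ∈ T, v = n + g ∨ v + n + g = 2 * N) :
    (2 * h + 1) * g = 2 * N := by
  have hTne : T.Nonempty := ⟨g, hgT⟩
  have mult : ∀ n ∈ T, ∃ i, n = i * g ∧ 1 ≤ i ∧ ∀ j, 1 ≤ j → j ≤ i → j * g ∈ T := by
    intro n
    induction n using Nat.strong_induction_on with
    | _ n ih =>
      intro hn
      by_cases hne : n = g
      · refine ⟨1, by omega, le_rfl, fun j hj1 hj2 => ?_⟩
        obtain rfl : j = 1 := by omega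
        simpa using hgT
      · obtain ⟨hgn, hsub, -⟩ := step n hn hne
        obtain ⟨i, hi, hi1, hall⟩ := ih (n - g) (by omega) hsub
        refine ⟨i + 1, by rw [add_mul, one_mul]; omega, by omega, fun j hj1 hj2 => ?_⟩
        rcases Nat.lt_or_ge j (i + 1) with hj | hj
        · exact hall j hj1 (by omega)
        · obtain rfl : j = i + 1 := by omega
          rw [add_mul, one_mul, show i * g + g = n by omega]; exact hn
  obtain ⟨t, ht, ht1, htall⟩ := mult (T.max' hTne) (T.max'_mem hTne)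
  have hTeq : T = (Finset.Icc 1 t).image (· * g) := by
    ext n
    simp only [Finset.mem_image, Finset.mem_Icc]
    constructor
    · intro hn
      obtain ⟨i, rfl, hi1, -⟩ := mult n hn
      refine ⟨i, ⟨hi1, ?_⟩, rfl⟩
      have := T.le_max' _ hn
      rw [ht] at this
      exact Nat.le_of_mul_le_mul_right this (by omega)
    · rintro ⟨i, ⟨hi1, hi2⟩, rfl⟩
      exact htall i hi1 hi2
  have htT : t * g ∈ T := htall t ht1 le_rfl
  have hth : t = h := by
    rw [← hcard, hTeq, Finset.card_image_of_injective _ fun a b hab =>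
      Nat.eq_of_mul_eq_mul_right (by omega) hab]
    simp
  subst hth
  have hne : t * g ≠ g := by
    intro he
    have : 2 * g ≤ t * g := Nat.mul_le_mul_right g hh
    omega
  obtain ⟨-, -, v, hv, hor⟩ := step _ htT hne
  obtain ⟨i, rfl, hi1, -⟩ := mult v hv
  have hiT : i * g ≤ t * g := ht ▸ T.le_max' _ hv
  have hit : i ≤ t := Nat.le_of_mul_le_mul_right hiT (by omega)
  rcases hor with hor | hor
  · omega
  · have := hlt _ htT
    have e : (i + t + 1) * g = 2 * N := by rw [add_mul, add_mul, one_mul]; exact hor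
    have h2 : (2 * t) * g < (i + t + 1) * g := by rw [e, mul_assoc]; omega
    have := Nat.lt_of_mul_lt_mul_right h2
    obtain rfl : i = t := by omega
    rw [← e]; ring

/-- The hypotheses. -/
structure TwoSetup (A : ValuationSubring ℚ) (E : WeierstrassCurve.Affine ℚ) (N p : ℕ) : Prop where
  hA : ∀ n : ℤ, (n : ℚ) ∈ A.nonunits ↔ (2 : ℤ) ∣ n
  h1 : E.a₁ = 1
  h2 : E.a₂ ∈ A
  h3 : E.a₃ = 0
  h6 : E.a₆ = 0
  h4 : ∃ u : ℚ, IsU A u ∧ E.a₄ = 2 ^ N * u
  hN : 1 ≤ N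
  hp : p.Prime
  hp5 : 5 ≤ p
  hpN : ¬ p ∣ N
  hfar : ∀ P : E.Point, p • P = 0 → Far E A P → P = 0

namespace TwoSetup

variable {A : ValuationSubring ℚ} {E : WeierstrassCurve.Affine ℚ} {N p : ℕ}
  (S : TwoSetup A E N p)
include S

theorem a4_ne : E.a₄ ≠ 0 := by
  obtain ⟨u, hu, e⟩ := S.h4
  rw [e]; exact mul_ne_zero (pow_ne_zero _ two_ne_zero) hu.ne_zero

theorem v_a4 : padicValRat 2 E.a₄ = N := by
  have : Fact (Nat.Prime 2) := ⟨Nat.prime_two⟩
  obtain ⟨u, hu, e⟩ := S.h4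
  rw [e, padicValRat.mul (pow_ne_zero _ two_ne_zero) hu.ne_zero, padicValRat.pow,
    v_eq_zero_of_isU S.hA hu, add_zero]
  rw [show padicValRat 2 (2 : ℚ) = 1 by exact_mod_cast padicValRat.self (p := 2) one_lt_two]
  ring

theorem a4_m : E.a₄ ∈ A.nonunits := by
  rw [m_iff_v S.hA S.a4_ne, S.v_a4]
  exact_mod_cast S.hN

theorem intCoeff : IntCoeff A E where
  h1 := S.h1 ▸ one_mem A
  h2 := S.h2
  h3 := S.h3 ▸ zero_mem A
  h4 := m_mem S.a4_m
  h6 := S.h6 ▸ zero_mem A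

theorem two_m : (2 : ℚ) ∈ A.nonunits := by simpa using (S.hA 2).2 dvd_rfl

/-- The equation of the curve. -/
theorem eqn {x y : ℚ} (h : E.Equation x y) : y ^ 2 + x * y = x ^ 3 + E.a₂ * x ^ 2 + E.a₄ * x := by
  rw [equation_iff, S.h1, S.h3, S.h6] at h
  linear_combination h

omit S in
theorem smul_add_self {P : E.Point} (hP : p • P = 0) : p • (P + P) = 0 := by
  rw [nsmul_add, hP, add_zero]

theorem eq_zero_of_two {P : E.Point} (hP : p • P = 0) (h : P + P = 0) : P = 0 := by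
  obtain ⟨k, hk⟩ := S.hp.odd_of_ne_two (by have := S.hp5; omega)
  rw [hk, add_smul, one_smul, mul_comm, mul_nsmul', two_nsmul, h, nsmul_zero, zero_add] at hP
  exact hP

theorem eq_zero_of_three {P : E.Point} (hP : p • P = 0) (h : P + P + P = 0) : P = 0 := by
  have hc : Nat.Coprime 3 p := (Nat.coprime_primes Nat.prime_three S.hp).2 (by
    have := S.hp5; omega)
  have h1 : addOrderOf P ∣ p := addOrderOf_dvd_of_nsmul_eq_zero hP
  have h2 : addOrderOf P ∣ 3 := addOrderOf_dvd_of_nsmul_eq_zero (by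
    rw [show (3 : ℕ) = 2 + 1 from rfl, add_smul, two_nsmul, one_smul]; exact h)
  exact AddMonoid.addOrderOf_eq_one_iff.1 (Nat.eq_one_of_dvd_coprimes hc h2 h1)

theorem x_mem {P : E.Point} (hP : p • P = 0) {x y : ℚ} {h : E.Nonsingular x y}
    (e : P = .some x y h) : x ∈ A := by
  by_contra hx
  exact Point.some_ne_zero h (e.symm.trans (S.hfar P hP (e ▸ hx)))

theorem x_ne_zero {P : E.Point} (hP : p • P = 0) {x y : ℚ} {h : E.Nonsingular x y}
    (e : P = .some x y h) : x ≠ 0 := by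
  rintro rfl
  have hy : y = 0 := by simpa using S.eqn h.1
  refine Point.some_ne_zero h (e.symm.trans (S.eq_zero_of_two hP ?_))
  rw [e]
  exact Point.add_of_Y_eq rfl (by simp [negY, hy, S.h3])

/-- The abscissa of `2P`. -/
theorem double_coord {P : E.Point} (hP : p • P = 0) {x y : ℚ} {h : E.Nonsingular x y}
    (e : P = .some x y h) : 2 * y + x ≠ 0 ∧ ∃ X Y h', P + P = .some X Y h' ∧
      X * (2 * y + x) ^ 2 = (x ^ 2 - E.a₄) ^ 2 := by
  subst e
  have hy : y ≠ E.negY x y := fun hy =>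
    Point.some_ne_zero h (S.eq_zero_of_two hP (Point.add_of_Y_eq rfl hy))
  have hd : 2 * y + x ≠ 0 := fun hd => hy (by
    rw [negY, S.h1, S.h3]; linear_combination hd)
  refine ⟨hd, _, _, _, Point.add_of_Y_ne hy, ?_⟩
  rw [slope_of_Y_ne rfl hy, Affine.addX, negY, S.h1, S.h3]
  have : y - (-y - 1 * x - 0) = 2 * y + x := by ring
  rw [this]
  field_simp
  linear_combination (-(1 + 4 * E.a₂ + 8 * x)) * S.eqn h.1

/-- Rational `p`-torsion reduces to the node at `2`. -/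
theorem x_m {P : E.Point} (hP : p • P = 0) {x y : ℚ} {h : E.Nonsingular x y}
    (e : P = .some x y h) : x ∈ A.nonunits := by
  by_contra hxm
  have hx := S.x_mem hP e
  have hy := y_mem S.intCoeff h.1 hx
  have hxu : IsU A x := isU_of_mem hx hxm
  obtain ⟨hd, X, Y, h', e2, key⟩ := S.double_coord hP e
  have hP2 := smul_add_self hP
  have hX := S.x_mem hP2 e2
  have hY := y_mem S.intCoeff h'.1 hX
  have hdu : IsU A (2 * y + x) := by
    rw [add_comm]; exact hxu.add_m (m_mul_right S.two_m hy)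
  have hXu : IsU A X := by
    have hrhs : IsU A ((x ^ 2 - E.a₄) ^ 2) := by
      rw [sub_eq_add_neg]; exact ((hxu.pow 2).add_m (m_neg S.a4_m)).pow 2
    have eX : X = (x ^ 2 - E.a₄) ^ 2 / (2 * y + x) ^ 2 := by
      rw [eq_div_iff (pow_ne_zero 2 hd), key]
    rw [eX]; exact hrhs.div (hdu.pow 2)
  have hx1 : x - 1 ∈ A.nonunits := (m_or_sub_one_m S.hA hx).resolve_left hxm
  have hX1 : X - 1 ∈ A.nonunits := (m_or_sub_one_m S.hA hX).resolve_left hXu.not_m
  have hdx : X - x ∈ A.nonunits := by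
    have := m_sub hX1 hx1; rwa [show X - 1 - (x - 1) = X - x by ring] at this
  have hne : P ≠ 0 := e ▸ Point.some_ne_zero h
  rcases m_or_sub_one_m S.hA (sub_mem hY hy) with hc | hc
  · -- `2P ≡ P`
    have hf : Far E A (P + P - P) := by
      rw [e2, e]
      exact far_sub_of_congr S.intCoeff hx hdx hc fun ⟨_, hfy⟩ => hdu.not_m (by
        simpa [fY, S.h1, S.h3] using hfy)
    rw [add_sub_cancel_right] at hf
    exact hne (S.hfar P hP hf)
  · -- `2P ≡ -P`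
    have hf : Far E A (P + P - -P) := by
      rw [e2, e, Point.neg_some]
      refine far_sub_of_congr S.intCoeff hx hdx ?_ fun ⟨_, hfy⟩ => hdu.not_m ?_
      · have e3 : Y - E.negY x y = (Y - y - 1) + 2 * y + ((x - 1) + 2) := by
          rw [negY, S.h1, S.h3]; ring
        rw [e3]
        exact m_add (m_add hc (m_mul_right S.two_m hy)) (m_add hx1 S.two_m)
      · have e3 : 2 * y + x = -fY E x (E.negY x y) := by rw [fY, negY, S.h1, S.h3]; ring
        rw [e3]; exact m_neg hfy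
    rw [sub_neg_eq_add] at hf
    exact hne (S.eq_zero_of_three hP (S.hfar _ (by rw [nsmul_add, hP2, hP, add_zero]) hf))

/-- `1 ≤ v(x) < N` and `v(2y + x) = v(x)`. -/
theorem v_bounds {P : E.Point} (hP : p • P = 0) {x y : ℚ} {h : E.Nonsingular x y}
    (e : P = .some x y h) :
    1 ≤ padicValRat 2 x ∧ padicValRat 2 x < N ∧ 2 * y + x ≠ 0 ∧
      padicValRat 2 (2 * y + x) = padicValRat 2 x := by
  have : Fact (Nat.Prime 2) := ⟨Nat.prime_two⟩
  have hx0 := S.x_ne_zero hP e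
  have hxm := S.x_m hP e
  have h4 := S.a4_ne
  obtain ⟨hd, X, Y, h', e2, key⟩ := S.double_coord hP e
  have hXm := S.x_m (smul_add_self hP) e2
  have h1 : 1 ≤ padicValRat 2 x := (m_iff_v S.hA hx0).1 hxm
  have hsq : (2 * y + x) ^ 2 = x * (4 * x ^ 2 + (1 + 4 * E.a₂) * x + 4 * E.a₄) := by
    linear_combination 4 * S.eqn h.1
  have hlt : padicValRat 2 x < N := by
    by_contra hge
    set s := x / E.a₄ with hs
    have hsA : s ∈ A := by
      rw [mem_iff_v S.hA, padicValRat.div hx0 h4, S.v_a4]; omega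
    have hl : X * (2 * y + x) ^ 2 / E.a₄ ^ 2 ∈ A.nonunits := by
      rw [hsq]
      have : X * (x * (4 * x ^ 2 + (1 + 4 * E.a₂) * x + 4 * E.a₄)) / E.a₄ ^ 2
          = X * (s * (4 * x * s + (1 + 4 * E.a₂) * s + 4)) := by rw [hs]; field_simp
      rw [this]
      refine m_mul_right hXm (mul_mem hsA (add_mem (add_mem ?_ ?_) (ofNat_mem A 4)))
      · exact mul_mem (mul_mem (ofNat_mem A 4) (m_mem hxm)) hsA
      · exact mul_mem (add_mem (one_mem A) (mul_mem (ofNat_mem A 4) S.h2)) hsA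
    rw [key] at hl
    have e3 : (x ^ 2 - E.a₄) ^ 2 / E.a₄ ^ 2 = (-1 + x * s) ^ 2 := by
      rw [hs]; field_simp; ring
    rw [e3] at hl
    exact ((isU_one.neg.add_m (m_mul_right hxm hsA)).pow 2).not_m hl
  refine ⟨h1, hlt, hd, ?_⟩
  have hu : IsU A ((2 * y + x) / x) := by
    refine IsU.of_pow two_ne_zero ?_
    have e3 : ((2 * y + x) / x) ^ 2 = 1 + (4 * E.a₂ + 4 * x + 4 * (E.a₄ / x)) := by
      rw [div_pow, hsq]; field_simp; ring
    rw [e3]
    have h4x : E.a₄ / x ∈ A.nonunits := by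
      rw [m_iff_v S.hA (div_ne_zero h4 hx0), padicValRat.div h4 hx0, S.v_a4]; omega
    have h4m : (4 : ℚ) ∈ A.nonunits := by simpa using (S.hA 4).2 (by norm_num)
    exact isU_one.add_m (m_add (m_add (m_mul_right h4m S.h2) (m_mul_right h4m (m_mem hxm)))
      (m_mul_right h4m (m_mem h4x)))
  have hz := v_eq_zero_of_isU S.hA hu
  rw [padicValRat.div hd hx0] at hz
  omega

/-- The valuations of the abscissas of `Q ± P` for two torsion points with `v₂ x₁ ≤ v₂ x₂`. -/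
theorem pair {P Q : E.Point} (hP : p • P = 0) (hQ : p • Q = 0)
    (hPQ : P ≠ Q) (hPQ' : P ≠ -Q) {x₁ y₁ x₂ y₂ : ℚ} {h₁ : E.Nonsingular x₁ y₁}
    {h₂ : E.Nonsingular x₂ y₂} (e₁ : P = .some x₁ y₁ h₁) (e₂ : Q = .some x₂ y₂ h₂)
    (hle : padicValRat 2 x₁ ≤ padicValRat 2 x₂) :
    padicValRat 2 x₁ < padicValRat 2 x₂ ∧
    ∃ X Y h X' Y' h', ((Q + P = .some X Y h ∧ Q - P = .some X' Y' h') ∨
        (Q - P = .some X Y h ∧ Q + P = .some X' Y' h')) ∧
      padicValRat 2 X = padicValRat 2 x₂ - padicValRat 2 x₁ ∧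
      (padicValRat 2 X' = padicValRat 2 x₂ + padicValRat 2 x₁ ∨
        padicValRat 2 X' = 2 * N - (padicValRat 2 x₂ + padicValRat 2 x₁)) := by
  have : Fact (Nat.Prime 2) := ⟨Nat.prime_two⟩
  obtain ⟨h11, h12, hd₁, hv₁⟩ := S.v_bounds hP e₁
  obtain ⟨h21, h22, hd₂, hv₂⟩ := S.v_bounds hQ e₂
  have hne : x₂ ≠ x₁ := by
    intro hx
    rcases (xRep_eq_xRep_iff (P := P) (Q := Q)).1
      (by rw [e₁, e₂, xRep_some, xRep_some, hx]) with h | h
    · exact hPQ h
    · exact hPQ' h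
  have hD : x₂ - x₁ ≠ 0 := sub_ne_zero.2 hne
  obtain ⟨X, Y, hp', ep, hXdef⟩ : ∃ X Y h, Q + P = .some X Y h ∧
      X = E.addX x₂ x₁ (E.slope x₂ x₁ y₂ y₁) :=
    ⟨_, _, _, by rw [e₁, e₂]; exact Point.add_of_X_ne hne, rfl⟩
  obtain ⟨X', Y', hm', em, hX'def⟩ : ∃ X Y h, Q - P = .some X Y h ∧
      X = E.addX x₂ x₁ (E.slope x₂ x₁ y₂ (E.negY x₁ y₁)) :=
    ⟨_, _, _, by rw [e₁, e₂, sub_eq_add_neg, Point.neg_some]; exact Point.add_of_X_ne hne, rfl⟩
  have hPp : p • (Q + P) = 0 := by rw [nsmul_add, hP, hQ, add_zero]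
  have hPm : p • (Q - P) = 0 := by rw [nsmul_sub, hP, hQ, sub_zero]
  obtain ⟨u1, u2, -, -⟩ := S.v_bounds hPp ep
  obtain ⟨w1, w2, -, -⟩ := S.v_bounds hPm em
  have hX0 := S.x_ne_zero hPp ep
  have hX'0 := S.x_ne_zero hPm em
  have f₁ := S.eqn h₁.1
  have f₂ := S.eqn h₂.1
  have idd : (X' - X) * (x₂ - x₁) ^ 2 = (2 * y₂ + x₂) * (2 * y₁ + x₁) := by
    rw [hXdef, hX'def, slope_of_X_ne hne, slope_of_X_ne hne, Affine.addX, Affine.addX, negY,
      S.h1, S.h3]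
    field_simp
    ring
  have idp : X * X' * (x₂ - x₁) ^ 2 = (x₂ * x₁ - E.a₄) ^ 2 := by
    rw [hXdef, hX'def, slope_of_X_ne hne, slope_of_X_ne hne, Affine.addX, Affine.addX, negY,
      S.h1, S.h3]
    field_simp
    linear_combination
      ((4 * x₂ ^ 3 + (1 + 4 * E.a₂) * x₂ ^ 2 + 4 * E.a₄ * x₂
          + (4 * x₁ ^ 3 + (1 + 4 * E.a₂) * x₁ ^ 2 + 4 * E.a₄ * x₁)
          - (1 + 4 * E.a₂ + 4 * x₂ + 4 * x₁) * (x₂ - x₁) ^ 2) / 2
        + (y₂ ^ 2 + x₂ * y₂ - (x₂ ^ 3 + E.a₂ * x₂ ^ 2 + E.a₄ * x₂))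
        - 3 * (y₁ ^ 2 + x₁ * y₁ - (x₁ ^ 3 + E.a₂ * x₁ ^ 2 + E.a₄ * x₁))
        - (4 * x₁ ^ 3 + (1 + 4 * E.a₂) * x₁ ^ 2 + 4 * E.a₄ * x₁)) * f₂
      + ((4 * x₂ ^ 3 + (1 + 4 * E.a₂) * x₂ ^ 2 + 4 * E.a₄ * x₂
          + (4 * x₁ ^ 3 + (1 + 4 * E.a₂) * x₁ ^ 2 + 4 * E.a₄ * x₁)
          - (1 + 4 * E.a₂ + 4 * x₂ + 4 * x₁) * (x₂ - x₁) ^ 2) / 2
        + (y₂ ^ 2 + x₂ * y₂ - (x₂ ^ 3 + E.a₂ * x₂ ^ 2 + E.a₄ * x₂))
        + (y₁ ^ 2 + x₁ * y₁ - (x₁ ^ 3 + E.a₂ * x₁ ^ 2 + E.a₄ * x₁))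
        - (4 * x₂ ^ 3 + (1 + 4 * E.a₂) * x₂ ^ 2 + 4 * E.a₄ * x₂)) * f₁
  have hx₁ := S.x_ne_zero hP e₁
  have hx₂ := S.x_ne_zero hQ e₂
  have hdiff0 : X' - X ≠ 0 := fun h => mul_ne_zero hd₂ hd₁ (by rw [← idd, h, zero_mul])
  have hprod0 : x₂ * x₁ - E.a₄ ≠ 0 := fun h =>
    mul_ne_zero (mul_ne_zero hX0 hX'0) (pow_ne_zero 2 hD) (by rw [idp, h]; ring)
  have vdd := congrArg (padicValRat 2) idd
  have vdp := congrArg (padicValRat 2) idp
  rw [padicValRat.mul hdiff0 (pow_ne_zero 2 hD), padicValRat.pow, padicValRat.mul hd₂ hd₁,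
    hv₁, hv₂] at vdd
  rw [padicValRat.mul (mul_ne_zero hX0 hX'0) (pow_ne_zero 2 hD), padicValRat.pow,
    padicValRat.mul hX0 hX'0, padicValRat.pow] at vdp
  have hdmin := min_v_le_v_sub hdiff0
  have hdeq := v_sub_eq_min hdiff0 hX'0 hX0
  have hDmin := min_v_le_v_sub hD
  have hDeq := v_sub_eq_min hD hx₂ hx₁
  have hPmin := min_v_le_v_sub hprod0
  have hPeq := v_sub_eq_min hprod0 (mul_ne_zero hx₂ hx₁) S.a4_ne
  rw [padicValRat.mul hx₂ hx₁, S.v_a4] at hPmin hPeq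
  push_cast at vdd vdp
  have hlt : padicValRat 2 x₁ < padicValRat 2 x₂ := by omega
  refine ⟨hlt, ?_⟩
  rcases lt_trichotomy (padicValRat 2 X) (padicValRat 2 X') with h | h | h
  · refine ⟨_, _, _, _, _, _, Or.inl ⟨ep, em⟩, ?_, ?_⟩ <;> omega
  · exfalso; omega
  · refine ⟨_, _, _, _, _, _, Or.inr ⟨em, ep⟩, ?_, ?_⟩ <;> omega

/-- Bounds on `dval` of a nonzero torsion point. -/
theorem dval_bounds {P : E.Point} (hP : p • P = 0) (h0 : P ≠ 0) :
    1 ≤ dval P ∧ dval P < N := by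
  cases P with
  | zero => exact absurd rfl h0
  | some x y h =>
    obtain ⟨a, b, -, -⟩ := S.v_bounds hP rfl
    simp only [dval]; omega

/-- The values `d` of `Q ± P` in terms of those of `P` and `Q`. -/
theorem dval_pair {P Q : E.Point} (hP : p • P = 0) (hQ : p • Q = 0) (hP0 : P ≠ 0) (hQ0 : Q ≠ 0)
    (hPQ : P ≠ Q) (hPQ' : P ≠ -Q) (hle : dval P ≤ dval Q) :
    dval P < dval Q ∧ ∃ R R' : E.Point,
      ((R = Q + P ∧ R' = Q - P) ∨ (R = Q - P ∧ R' = Q + P)) ∧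
      dval R + dval P = dval Q ∧
      (dval R' = dval Q + dval P ∨ dval R' + dval Q + dval P = 2 * N) := by
  cases P with
  | zero => exact absurd rfl hP0
  | some x₁ y₁ h₁ =>
  cases Q with
  | zero => exact absurd rfl hQ0
  | some x₂ y₂ h₂ =>
  obtain ⟨a1, b1, -, -⟩ := S.v_bounds hP rfl
  obtain ⟨a2, b2, -, -⟩ := S.v_bounds hQ rfl
  simp only [dval] at hle ⊢
  obtain ⟨hlt, X, Y, h, X', Y', h', hor, eX, eX'⟩ :=
    S.pair hP hQ hPQ hPQ' rfl rfl (by omega)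
  refine ⟨by omega, .some X Y h, .some X' Y' h', ?_, ?_, ?_⟩
  · rcases hor with ⟨a, b⟩ | ⟨a, b⟩
    · exact Or.inl ⟨a.symm, b.symm⟩
    · exact Or.inr ⟨a.symm, b.symm⟩
  all_goals simp only []
  · omega
  · omega

/-- There is no rational `p`-torsion. -/
theorem eq_zero_of_torsion {Q : E.Point} (hQ : p • Q = 0) : Q = 0 := by
  classical
  by_contra hQ0
  have hord : addOrderOf Q = p := addOrderOf_eq_prime (p := p) (hp := ⟨S.hp⟩) hQ hQ0
  obtain ⟨h, hh⟩ := S.hp.odd_of_ne_two (by have := S.hp5; omega)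
  have hh2 : 2 ≤ h := by have := S.hp5; omega
  have tors : ∀ z : ℤ, p • (z • Q) = 0 := fun z => by
    rw [smul_comm, hQ, zsmul_zero]
  have zero_iff : ∀ z : ℤ, z • Q = 0 ↔ (p : ℤ) ∣ z := fun z => by
    rw [← hord]; exact addOrderOf_dvd_iff_zsmul_eq_zero.symm
  have small : ∀ z : ℤ, (p : ℤ) ∣ z → -(p : ℤ) < z → z < p → z = 0 := by
    intro z hz h1 h2
    exact Int.eq_zero_of_abs_lt_dvd hz (abs_lt.2 ⟨h1, h2⟩)
  have zs_sub : ∀ m n : ℤ, m • Q - n • Q = (m - n) • Q := fun m n => by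
    rw [sub_eq_add_neg, sub_eq_add_neg, ← neg_zsmul, ← add_zsmul]
  set d : ℤ → ℕ := fun z => dval (z • Q) with hd
  set T := (Finset.Icc (1 : ℤ) h).image d with hT
  -- every multiple is `± k Q` with `1 ≤ k ≤ h`
  have memT : ∀ z : ℤ, ¬ (p : ℤ) ∣ z → d z ∈ T := by
    intro z hz
    set r := z % (p : ℤ) with hr
    have hp0 : (0 : ℤ) < p := by exact_mod_cast S.hp.pos
    have r1 := Int.emod_nonneg z hp0.ne'
    have r2 := Int.emod_lt_of_pos z hp0
    have r3 : r ≠ 0 := fun h0 => hz (Int.dvd_of_emod_eq_zero h0)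
    have ez : z • Q = r • Q := by
      rw [hr, ← sub_eq_zero, zs_sub, zero_iff]
      exact Int.dvd_self_sub_emod
    by_cases hrh : r ≤ h
    · exact Finset.mem_image.2 ⟨r, Finset.mem_Icc.2 ⟨by omega, hrh⟩, by simp [hd, ez]⟩
    · refine Finset.mem_image.2 ⟨(p : ℤ) - r, Finset.mem_Icc.2 ⟨by omega, ?_⟩, ?_⟩
      · have : (p : ℤ) = 2 * h + 1 := by exact_mod_cast hh
        omega
      · have hpQ : (p : ℤ) • Q = 0 := by rw [natCast_zsmul]; exact hQ
        simp [hd, ez, ← zs_sub, hpQ, dval_neg]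
  have bnd : ∀ z : ℤ, ¬ (p : ℤ) ∣ z → 1 ≤ d z ∧ d z < N := fun z hz =>
    S.dval_bounds (tors z) (by rwa [Ne, zero_iff])
  have notdvd : ∀ z : ℤ, z ∈ Finset.Icc (1 : ℤ) h → ¬ (p : ℤ) ∣ z := by
    intro z hz hdiv
    rw [Finset.mem_Icc] at hz
    have := small z hdiv (by omega) (by omega)
    omega
  have key : ∀ a ∈ Finset.Icc (1 : ℤ) h, ∀ b ∈ Finset.Icc (1 : ℤ) h, a ≠ b → d a ≤ d b →
      d a < d b ∧ ∃ u v : ℕ, u ∈ T ∧ v ∈ T ∧ u + d a = d b ∧
        (v = d b + d a ∨ v + d b + d a = 2 * N) := by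
    intro a ha b hb hab hle
    have hane := notdvd a ha
    have hbne := notdvd b hb
    rw [Finset.mem_Icc] at ha hb
    have h1 : ¬ (p : ℤ) ∣ b + a := fun hdiv => by
      have := small _ hdiv (by omega) (by omega); omega
    have h2 : ¬ (p : ℤ) ∣ b - a := fun hdiv => by
      have := small _ hdiv (by omega) (by omega); omega
    obtain ⟨hlt, R, R', hor, e, e'⟩ := S.dval_pair (tors a) (tors b)
      (by rwa [Ne, zero_iff]) (by rwa [Ne, zero_iff])
      (fun he => h2 (by rw [← zero_iff, ← zs_sub, he, sub_self]))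
      (fun he => h1 (by rw [← zero_iff, add_zsmul, he, add_neg_cancel]))
      hle
    refine ⟨hlt, dval R, dval R', ?_, ?_, e, e'⟩ <;>
    · rcases hor with ⟨rfl, rfl⟩ | ⟨rfl, rfl⟩ <;>
        first
        | (rw [← add_zsmul]; exact memT _ h1)
        | (rw [zs_sub]; exact memT _ h2)
  have inj : Set.InjOn d (Finset.Icc (1 : ℤ) h : Set ℤ) := by
    intro a ha b hb hab
    by_contra hne
    exact (key a ha b hb hne hab.le).1.ne hab
  have hcard : T.card = h := by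
    rw [hT, Finset.card_image_of_injOn inj, Int.card_Icc]; omega
  have hTne : T.Nonempty := by rw [← Finset.card_pos]; omega
  set g := T.min' hTne with hg
  have hgT : g ∈ T := T.min'_mem hTne
  obtain ⟨zg, hzg, hzg'⟩ := Finset.mem_image.1 hgT
  have hgpos : 1 ≤ g := hzg' ▸ (bnd zg (notdvd zg hzg)).1
  have step : ∀ n ∈ T, n ≠ g → g < n ∧ n - g ∈ T ∧
      ∃ v ∈ T, v = n + g ∨ v + n + g = 2 * N := by
    intro n hn hne
    obtain ⟨z, hz, hz'⟩ := Finset.mem_image.1 hn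
    have hgn : g ≤ n := T.min'_le n hn
    obtain ⟨hlt, u, v, hu, hv, e, e'⟩ := key zg hzg z hz
      (fun he => hne (by rw [← hz', ← hzg', he])) (by rw [hzg', hz']; exact hgn)
    rw [hzg', hz'] at e e' hlt
    exact ⟨hlt, (show n - g = u by omega) ▸ hu, v, hv, e'⟩
  have e : (2 * h + 1) * g = 2 * N := two_mul_add_one_mul_eq hh2 hcard hgT hgpos
    (fun n hn => by
      obtain ⟨z, hz, rfl⟩ := Finset.mem_image.1 hn
      exact (bnd z (notdvd z hz)).2) step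
  rw [← hh] at e
  rcases S.hp.dvd_mul.1 (Dvd.intro g e) with h2 | h2
  · have := Nat.le_of_dvd two_pos h2
    have := S.hp5
    omega
  · exact S.hpN h2

end TwoSetup

end Fermat.Agent.Frey
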