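import Fermat.Agent.EC.TorsionGalois
import Fermat.Agent.Frey.FreyModel
import Fermat.Agent.Frey.Local
import Fermat.Agent.Frey.RationalTwo

/-!
The Frey curve has no `p`-torsion point fixed by the Galois group.
-/

noncomputable section

namespace Fermat.Agent.Frey

open WeierstrassCurve WeierstrassCurve.Affine WeierstrassCurve.Affine.Point
open scoped WeierstrassCurve.Affine

local notation "Qbar" => AlgebraicClosure ℚ
local notation "GQ" => AlgebraicClosure ℚ ≃ₐ[ℚ] AlgebraicClosure ℚ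

/-- A rational point of an integral model, seen as a `ℚ̄`-point. -/
abbrev toBar (W : WeierstrassCurve ℤ) :
    (((W.map (Int.castRingHom ℚ))⁄ℚ) : WeierstrassCurve.Affine ℚ).Point →+ (barCurve W).Point :=
  Point.map (Algebra.ofId ℚ Qbar)

theorem toBar_injective (W : WeierstrassCurve ℤ) : Function.Injective (toBar W) :=
  Point.map_injective (W' := W.map (Int.castRingHom ℚ)) _

theorem toBar_some {W : WeierstrassCurve ℤ} {x y : ℚ}
    (h : (((W.map (Int.castRingHom ℚ))⁄ℚ) : WeierstrassCurve.Affine ℚ).Nonsingular x y) :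
    ∃ h', toBar W (.some x y h) = .some (algebraMap ℚ Qbar x) (algebraMap ℚ Qbar y) h' :=
  ⟨_, Point.map_some (Algebra.ofId ℚ Qbar) h⟩

/-- The integral model of the Frey curve, seen in `ℚ` with the place at `2` below `A`, satisfies
the hypotheses of `TwoSetup`. -/
theorem exists_twoSetup (P : FreyPackage) {A : ValuationSubring Qbar} (hA : A.LiesOverPrime 2) :
    ∃ N, TwoSetup (A.comap (algebraMap ℚ Qbar))
      (((P.freyCurveInt.map (Int.castRingHom ℚ))⁄ℚ) : WeierstrassCurve.Affine ℚ) N P.p := by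
  have : Fact P.p.Prime := ⟨P.pp⟩
  have hp2 : P.p ≠ 2 := by have := P.hp5; omega
  set A₀ := A.comap (algebraMap ℚ Qbar) with hA₀
  set E₀ : WeierstrassCurve.Affine ℚ := (P.freyCurveInt.map (Int.castRingHom ℚ))⁄ℚ with hE₀
  have memA₀ : ∀ x : ℚ, x ∈ A₀ ↔ algebraMap ℚ Qbar x ∈ A := fun x => Iff.rfl
  have hA₀int : ∀ n : ℤ, (n : ℚ) ∈ A₀.nonunits ↔ (2 : ℤ) ∣ n := by
    intro n
    have h2 := Gal.intCast_mem_nonunits_iff Nat.prime_two hA n
    rw [ValuationSubring.mem_nonunits_iff_or] at h2 ⊢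
    rw [memA₀, map_inv₀, map_intCast, Int.cast_eq_zero]
    rw [Int.cast_eq_zero] at h2
    exact h2
  obtain ⟨N, u, hu, hodd, hN1, hpN⟩ := freyCurveInt_a4_two P
  refine ⟨N, hA₀int, ?_, ?_, ?_, ?_, ⟨(u : ℚ), ?_, ?_⟩, hN1, P.pp, P.hp5, hpN, ?_⟩
  · simp [hE₀, FreyPackage.freyCurveInt]
  · simp [hE₀]
  · simp [hE₀, FreyPackage.freyCurveInt]
  · simp [hE₀, FreyPackage.freyCurveInt]
  · exact isU_of_mem (intCast_mem A₀ u) fun h => hodd ((hA₀int u).1 h)
  · have := congrArg (Int.cast (R := ℚ)) hu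
    push_cast at this
    simpa [hE₀] using this
  · intro R hR hF
    apply toBar_injective P.freyCurveInt
    rw [_root_.map_zero]
    refine eq_zero_of_far_ne Nat.prime_two hA P.pp hp2 hp2.symm
      (by rw [← map_nsmul, hR, _root_.map_zero]) ?_
    cases R with
    | zero => exact far_zero
    | some x y h =>
      obtain ⟨h', e⟩ := toBar_some h
      rw [e]
      exact fun hm => hF ((memA₀ x).2 hm)

/-- A Galois-fixed `p`-torsion point of the Frey curve is zero. -/
theorem frey_fixed_tors_eq_zero (P : FreyPackage) (z : Tors P.freyCurveInt P.p)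
    (hz : ∀ σ : GQ, σ • z = z) : z = 0 := by
  have : Fact P.p.Prime := ⟨P.pp⟩
  obtain ⟨A, hA⟩ := Gal.exists_liesOverPrime Nat.prime_two
  set E₀ : WeierstrassCurve.Affine ℚ := (P.freyCurveInt.map (Int.castRingHom ℚ))⁄ℚ with hE₀
  obtain ⟨N, S⟩ := exists_twoSetup P hA
  obtain ⟨z, hzt⟩ := z
  cases z with
  | zero => rfl
  | some x y h =>
    exfalso
    have hxy : ∀ σ : GQ, σ x = x ∧ σ y = y := fun σ =>
      (EC.smul_some_eq_self_iff (K := Qbar) (P.freyCurveInt.map (Int.castRingHom ℚ)) h σ).1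
        (congrArg Subtype.val (hz σ))
    obtain ⟨q, hq⟩ := Gal.exists_rat_of_fixed fun σ => (hxy σ).1
    obtain ⟨r, hr⟩ := Gal.exists_rat_of_fixed fun σ => (hxy σ).2
    rw [← eq_ratCast (algebraMap ℚ Qbar)] at hq hr
    subst hq hr
    have h0 : E₀.Nonsingular q r :=
      ((P.freyCurveInt.map (Int.castRingHom ℚ)).toAffine.baseChange_nonsingular
        (f := Algebra.ofId ℚ Qbar) (algebraMap ℚ Qbar).injective q r).1 h
    obtain ⟨h', e⟩ := toBar_some h0
    have hz0 : P.p • (.some q r h0 : E₀.Point) = 0 := by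
      apply toBar_injective P.freyCurveInt
      rw [map_nsmul, e, _root_.map_zero]
      exact tors_nsmul ⟨_, hzt⟩
    exact Point.some_ne_zero h0 (S.eq_zero_of_torsion hz0)

end Fermat.Agent.Frey
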