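import Fermat.Agent.Frey.Reduction

/-!
The node of a multiplicative reduction: for a point `P` with singular reduction, either `2P` has
nonsingular reduction (middle component) or any point `P'` in the same branch with an abscissa
of the same valuation differs from `P` by a point with nonsingular reduction.
-/

namespace Fermat.Agent.Frey

open WeierstrassCurve WeierstrassCurve.Affine WeierstrassCurve.Affine.Point

variable {K : Type*} [Field K] {A : ValuationSubring K}

/-- Hypotheses for a translated equation `z² + a₁uz + a₃z = u³ + a₂u² + a₄u + a₆` with a node at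
`(0,0)` modulo the maximal ideal. -/
structure NodeCoeff (A : ValuationSubring K) (a1 a2 a3 a4 a6 : K) : Prop where
  h1 : a1 ∈ A
  h2 : a2 ∈ A
  h3 : a3 / a6 ∈ A
  h4 : a4 / a6 ∈ A
  h6 : a6 ∈ A.nonunits
  h60 : a6 ≠ 0
  hb : IsU A (a1 ^ 2 + 4 * a2)

namespace NodeCoeff

variable {a1 a2 a3 a4 a6 : K} (H : NodeCoeff A a1 a2 a3 a4 a6)
include H

theorem a3_m : a3 ∈ A.nonunits := by
  simpa [div_mul_cancel₀ _ H.h60] using m_mul_left H.h3 H.h6

theorem a4_m : a4 ∈ A.nonunits := by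
  simpa [div_mul_cancel₀ _ H.h60] using m_mul_left H.h4 H.h6

theorem z_m {u z : K} (heq : z ^ 2 + a1 * u * z + a3 * z = u ^ 3 + a2 * u ^ 2 + a4 * u + a6)
    (hu : u ∈ A.nonunits) : z ∈ A.nonunits := by
  refine m_of_quadratic (b := a1 * u + a3) (c := -(u ^ 3 + a2 * u ^ 2 + a4 * u + a6))
    (by linear_combination heq) (m_add (m_mul_left H.h1 hu) H.a3_m) (m_neg ?_)
  exact m_add (m_add (m_add (m_pow hu (by norm_num)) (m_mul_left H.h2 (m_pow hu two_ne_zero)))
    (m_mul_right H.a4_m (m_mem hu))) H.h6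

/-- Facts on `w = z / u` for a point away from the middle component. -/
theorem branch_w {u z : K} (heq : z ^ 2 + a1 * u * z + a3 * z = u ^ 3 + a2 * u ^ 2 + a4 * u + a6)
    (hu : u ∈ A.nonunits) (hu0 : u ≠ 0) (hbr : a6 / u ^ 2 ∈ A.nonunits) :
    a3 / u ∈ A.nonunits ∧ z / u ∈ A ∧ (z / u) ^ 2 + a1 * (z / u) - a2 ∈ A.nonunits ∧
      IsU A (2 * (z / u) + a1) := by
  have h60 := H.h60
  have e3 : a3 / u = a3 / a6 * (a6 / u ^ 2) * u := by field_simp
  have e4 : a4 / u = a4 / a6 * (a6 / u ^ 2) * u := by field_simp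
  have h3u : a3 / u ∈ A.nonunits := e3 ▸ m_mul_right (m_mul_left H.h3 hbr) (m_mem hu)
  have h4u : a4 / u ∈ A.nonunits := e4 ▸ m_mul_right (m_mul_left H.h4 hbr) (m_mem hu)
  have hc : u + a4 / u + a6 / u ^ 2 ∈ A.nonunits := m_add (m_add hu h4u) hbr
  have hw : z / u ∈ A := by
    refine mem_of_quadratic (b := a1 + a3 / u) (c := -(u + a2 + a4 / u + a6 / u ^ 2)) ?_
      (add_mem H.h1 (m_mem h3u)) (neg_mem ?_)
    · field_simp; linear_combination heq
    · exact add_mem (add_mem (add_mem (m_mem hu) H.h2) (m_mem h4u)) (m_mem hbr)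
  have key : (z / u) ^ 2 + a1 * (z / u) - a2
      = (u + a4 / u + a6 / u ^ 2) - a3 / u * (z / u) := by
    field_simp; linear_combination heq
  have hE : (z / u) ^ 2 + a1 * (z / u) - a2 ∈ A.nonunits := key ▸ m_sub hc (m_mul_right h3u hw)
  refine ⟨h3u, hw, hE, IsU.of_pow two_ne_zero (H.hb.of_sub_m ?_)⟩
  have e : (2 * (z / u) + a1) ^ 2 - (a1 ^ 2 + 4 * a2)
      = 4 * ((z / u) ^ 2 + a1 * (z / u) - a2) := by ring
  exact e ▸ m_mul_left (ofNat_mem A 4) hE

/-- Two points on the same branch with the same abscissa coincide. -/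
theorem branch_eq {u z z' : K}
    (heq : z ^ 2 + a1 * u * z + a3 * z = u ^ 3 + a2 * u ^ 2 + a4 * u + a6)
    (heq' : z' ^ 2 + a1 * u * z' + a3 * z' = u ^ 3 + a2 * u ^ 2 + a4 * u + a6)
    (hu : u ∈ A.nonunits) (hu0 : u ≠ 0) (hbr : a6 / u ^ 2 ∈ A.nonunits)
    (hw : z' / u - z / u ∈ A.nonunits) : z' = z := by
  obtain ⟨h3u, -, -, hd⟩ := H.branch_w heq hu hu0 hbr
  by_contra hne
  have h : z' + z + a1 * u + a3 = 0 :=
    (mul_eq_zero.1 (show (z' - z) * (z' + z + a1 * u + a3) = 0 by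
      linear_combination heq' - heq)).resolve_left (sub_ne_zero.2 hne)
  refine hd.not_m ?_
  have e : 2 * (z / u) + a1 = -(z' / u - z / u) - a3 / u := by
    field_simp; linear_combination h
  exact e ▸ m_sub (m_neg hw) h3u

/-- The chord through `P'` and `-P` does not meet the node. -/
theorem branch_chord {u z u' z' : K}
    (heq : z ^ 2 + a1 * u * z + a3 * z = u ^ 3 + a2 * u ^ 2 + a4 * u + a6)
    (hu : u ∈ A.nonunits) (hu0 : u ≠ 0) (hbr : a6 / u ^ 2 ∈ A.nonunits)
    (hc : IsU A (u' / u)) (hw : z' / u' - z / u ∈ A.nonunits) (hne : u' ≠ u) :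
    ((z' + z + a1 * u + a3) / (u' - u)) ^ 2 + a1 * ((z' + z + a1 * u + a3) / (u' - u))
      - a2 - u' - u ∉ A.nonunits := by
  obtain ⟨h3u, hwA, hE, hd⟩ := H.branch_w heq hu hu0 hbr
  have hu' : u' ∈ A.nonunits := by simpa [div_mul_cancel₀ _ hu0] using m_mul_left hc.mem hu
  have hu'0 : u' ≠ 0 := fun h => hc.ne_zero (by rw [h, zero_div])
  set c := u' / u with hcdef
  set w := z / u with hwdef
  set e := c * (z' / u' - w) + a3 / u with hedef
  have he : e ∈ A.nonunits := m_add (m_mul_left hc.mem hw) h3u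
  have hsub : u' - u ≠ 0 := sub_ne_zero.2 hne
  set L := (z' + z + a1 * u + a3) / (u' - u) with hL
  have hc1 : c - 1 ≠ 0 := by
    rw [hcdef]; intro h; exact hne (by field_simp at h; linear_combination h)
  have eL : L = (2 * w + a1 + (c - 1) * w + e) / (c - 1) := by
    rw [eq_div_iff hc1, hL, hedef, hwdef, hcdef]; field_simp; ring
  by_cases hcm : c - 1 ∈ A.nonunits
  · have hLA : L ∉ A := by
      rw [eL]
      exact not_mem_div ((hd.add_m (m_mul_right hcm hwA)).add_m he).not_m hcm hc1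
    intro hX
    refine hLA (mem_of_quadratic (b := a1) (c := -(L ^ 2 + a1 * L - a2 - u' - u) - a2 - u' - u)
      (by ring) H.h1 ?_)
    exact sub_mem (sub_mem (sub_mem (neg_mem (m_mem hX)) H.h2) (m_mem hu')) (m_mem hu)
  · have hcu : IsU A (c - 1) := isU_of_mem (sub_mem hc.mem (one_mem _)) hcm
    have h1 : IsU A (L - w) := by
      have : L - w = (2 * w + a1 + e) / (c - 1) := by rw [eL]; field_simp; ring
      exact this ▸ (hd.add_m he).div hcu
    have h2 : IsU A (L + w + a1) := by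
      have : L + w + a1 = (c * (2 * w + a1) + e) / (c - 1) := by rw [eL]; field_simp; ring
      exact this ▸ ((hc.mul hd).add_m he).div hcu
    have key : L ^ 2 + a1 * L - a2 - u' - u
        = (L - w) * (L + w + a1) + ((w ^ 2 + a1 * w - a2) - u' - u) := by ring
    rw [key]
    exact ((h1.mul h2).add_m (m_sub (m_sub hE hu') hu)).not_m

/-- Doubling a point of the middle component leaves the node. -/
theorem middle_double {u z : K}
    (heq : z ^ 2 + a1 * u * z + a3 * z = u ^ 3 + a2 * u ^ 2 + a4 * u + a6)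
    (hu : u ∈ A.nonunits) (hmid : u ^ 2 / a6 ∈ A) (hd : 2 * z + a1 * u + a3 ≠ 0) :
    ((3 * u ^ 2 + 2 * a2 * u + a4 - a1 * z) / (2 * z + a1 * u + a3)) ^ 2
      + a1 * ((3 * u ^ 2 + 2 * a2 * u + a4 - a1 * z) / (2 * z + a1 * u + a3))
      - a2 - u - u ∉ A.nonunits := by
  have h60 := H.h60
  set p3 := a3 / a6 with hp3
  set p4 := a4 / a6 with hp4
  set s := u ^ 2 / a6 with hs
  set D := (2 * z + a1 * u + a3) ^ 2 / a6 with hD
  set B := a1 ^ 2 + 4 * a2 with hB
  set N := u ^ 2 * s - (2 * p4 + a1 * p3) * u ^ 2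
      - 2 * u * (p3 * a3 + 4) - (B - a1 * p3 * a4 + a2 * p3 * a3 - p4 * a4) with hN
  have eD : D = 4 * u * s + B * s + 2 * (2 * p4 + a1 * p3) * u + (p3 * a3 + 4) := by
    rw [hD, hs, hp3, hp4, hB]; field_simp; linear_combination 4 * heq
  have hDA : D ∈ A := by
    rw [eD]
    refine add_mem (add_mem (add_mem ?_ ?_) ?_) ?_
    · exact mul_mem (mul_mem (ofNat_mem A 4) (m_mem hu)) hmid
    · exact mul_mem H.hb.mem hmid
    · exact mul_mem (mul_mem (ofNat_mem A 2) (add_mem (mul_mem (ofNat_mem A 2) H.h4)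
        (mul_mem H.h1 H.h3))) (m_mem hu)
    · exact add_mem (mul_mem H.h3 (m_mem H.a3_m)) (ofNat_mem A 4)
  have hNu : IsU A N := by
    have : N = -B + (u ^ 2 * s - (2 * p4 + a1 * p3) * u ^ 2
        - 2 * u * (p3 * a3 + 4) - (-(a1 * p3) * a4 + a2 * p3 * a3 - p4 * a4)) := by
      rw [hN]; ring
    rw [this]
    refine H.hb.neg.add_m (m_sub (m_sub (m_sub ?_ ?_) ?_) ?_)
    · exact m_mul_right (m_pow hu two_ne_zero) hmid
    · exact m_mul_left (add_mem (mul_mem (ofNat_mem A 2) H.h4) (mul_mem H.h1 H.h3))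
        (m_pow hu two_ne_zero)
    · exact m_mul_right (m_mul_left (ofNat_mem A 2) hu)
        (add_mem (mul_mem H.h3 (m_mem H.a3_m)) (ofNat_mem A 4))
    · exact m_sub (m_add (m_mul_left (neg_mem (mul_mem H.h1 H.h3)) H.a4_m)
        (m_mul_left (mul_mem H.h2 H.h3) H.a3_m)) (m_mul_left H.h4 H.a4_m)
  have hD0 : D ≠ 0 := div_ne_zero (pow_ne_zero 2 hd) h60
  set X := ((3 * u ^ 2 + 2 * a2 * u + a4 - a1 * z) / (2 * z + a1 * u + a3)) ^ 2
      + a1 * ((3 * u ^ 2 + 2 * a2 * u + a4 - a1 * z) / (2 * z + a1 * u + a3))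
      - a2 - u - u with hX
  have key : X * D = N := by
    set g := 3 * u ^ 2 + 2 * a2 * u + a4 - a1 * z with hg
    set d := 2 * z + a1 * u + a3 with hddef
    have k1 : X * D = (g ^ 2 + a1 * g * d - (a2 + 2 * u) * d ^ 2) / a6 := by
      rw [hX, hD]; field_simp; ring
    have k2 : N * a6 = u ^ 4 - (2 * a4 + a1 * a3) * u ^ 2 - 2 * u * (a3 ^ 2 + 4 * a6)
        - (B * a6 - a1 * a3 * a4 + a2 * a3 ^ 2 - a4 ^ 2) := by
      rw [hN, hs, hp3, hp4]; field_simp
    rw [k1, div_eq_iff h60, k2, hg, hddef, hB]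
    linear_combination -(a1 ^ 2 + 4 * a2 + 8 * u) * heq
  intro hXm
  exact hNu.not_m (key ▸ m_mul_right hXm hDA)

end NodeCoeff

/-- `(r,t)` is an approximate node of `W` at `A`, in translated form. -/
structure NodeAt (A : ValuationSubring K) (W : WeierstrassCurve.Affine K) (r t : K) : Prop where
  hr : r ∈ A
  ht : t ∈ A
  coeff : NodeCoeff A W.a₁ (W.a₂ + 3 * r) (fY W r t) (-fX W r t)
    (r ^ 3 + W.a₂ * r ^ 2 + W.a₄ * r + W.a₆ - (t ^ 2 + W.a₁ * r * t + W.a₃ * t))

variable {W : WeierstrassCurve.Affine K}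

theorem translated_eq {x y : K} (h : W.Equation x y) (r t : K) :
    (y - t) ^ 2 + W.a₁ * (x - r) * (y - t) + fY W r t * (y - t)
      = (x - r) ^ 3 + (W.a₂ + 3 * r) * (x - r) ^ 2 + (-fX W r t) * (x - r)
        + (r ^ 3 + W.a₂ * r ^ 2 + W.a₄ * r + W.a₆ - (t ^ 2 + W.a₁ * r * t + W.a₃ * t)) := by
  rw [equation_iff] at h
  simp only [fX, fY]
  linear_combination h

/-- A point reduces to the node iff its abscissa is congruent to that of the node. -/
theorem NodeAt.sing_iff {r t : K} (hn : NodeAt A W r t) {x y : K} {h : W.Nonsingular x y} :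
    Sing W A (.some x y h) ↔ x - r ∈ A.nonunits := by
  have H := hn.coeff
  have heq := translated_eq h.1 r t
  have e1 : fY W x y = 2 * (y - t) + W.a₁ * (x - r) + fY W r t := by simp only [fY]; ring
  have e2 : fX W x y = W.a₁ * (y - t) - (3 * (x - r) ^ 2 + 2 * (W.a₂ + 3 * r) * (x - r)
      + (-fX W r t)) := by simp only [fX]; ring
  set u := x - r with hudef
  set z := y - t with hzdef
  set a2 := W.a₂ + 3 * r with ha2
  rw [sing_some, e1, e2]
  constructor
  · rintro ⟨hx, hX, hY⟩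
    have hu : u ∈ A := sub_mem hx hn.hr
    have hz : z ∈ A := by
      refine mem_of_quadratic (b := W.a₁ * u + fY W r t)
        (c := -(u ^ 3 + a2 * u ^ 2 + (-fX W r t) * u +
          (r ^ 3 + W.a₂ * r ^ 2 + W.a₄ * r + W.a₆ - (t ^ 2 + W.a₁ * r * t + W.a₃ * t))))
        (by linear_combination heq)
        (add_mem (mul_mem H.h1 hu) (m_mem H.a3_m)) (neg_mem ?_)
      exact add_mem (add_mem (add_mem (pow_mem hu 3) (mul_mem H.h2 (pow_mem hu 2)))
        (mul_mem (m_mem H.a4_m) hu)) (m_mem H.h6)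
    by_contra hum
    have hU : IsU A u := isU_of_mem hu hum
    have A1 : 2 * z + W.a₁ * u ∈ A.nonunits := by simpa using m_sub hY H.a3_m
    have A2 : W.a₁ * z - (3 * u ^ 2 + 2 * a2 * u) ∈ A.nonunits := by
      have := m_add hX H.a4_m
      ring_nf at this ⊢
      exact this
    have B : z ^ 2 + W.a₁ * u * z - u ^ 3 - a2 * u ^ 2 ∈ A.nonunits := by
      have e : z ^ 2 + W.a₁ * u * z - u ^ 3 - a2 * u ^ 2 = ((-fX W r t) * u +
          (r ^ 3 + W.a₂ * r ^ 2 + W.a₄ * r + W.a₆ - (t ^ 2 + W.a₁ * r * t + W.a₃ * t)))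
          - fY W r t * z := by linear_combination heq
      rw [e]
      exact m_sub (m_add (m_mul_right H.a4_m hu) H.h6) (m_mul_right H.a3_m hz)
    set b := W.a₁ ^ 2 + 4 * a2 with hb
    have c6 : 6 * u + b ∈ A.nonunits := by
      have e : 6 * u + b = (W.a₁ * (2 * z + W.a₁ * u)
          - 2 * (W.a₁ * z - (3 * u ^ 2 + 2 * a2 * u))) / u := by
        rw [eq_div_iff hU.ne_zero, hb]; ring
      rw [e]
      exact m_div_of_isU (m_sub (m_mul_left H.h1 A1) (m_mul_left (ofNat_mem A 2) A2)) hU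
    have c4 : 4 * u + b ∈ A.nonunits := by
      have e : 4 * u + b = ((2 * z + W.a₁ * u) ^ 2
          - 4 * (z ^ 2 + W.a₁ * u * z - u ^ 3 - a2 * u ^ 2)) / u ^ 2 := by
        rw [eq_div_iff (pow_ne_zero 2 hU.ne_zero), hb]; ring
      rw [e]
      exact m_div_of_isU (m_sub (m_pow A1 two_ne_zero) (m_mul_left (ofNat_mem A 4) B)) (hU.pow 2)
    refine H.hb.not_m ?_
    have e : b = (4 * u + b) - 2 * ((6 * u + b) - (4 * u + b)) := by ring
    show b ∈ A.nonunits
    rw [e]
    exact m_sub c4 (m_mul_left (ofNat_mem A 2) (m_sub c6 c4))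
  · intro hu
    have hz : z ∈ A.nonunits := H.z_m heq hu
    refine ⟨by simpa [hudef] using add_mem (m_mem hu) hn.hr, ?_, ?_⟩
    · exact m_sub (m_mul_left H.h1 hz) (m_add (m_add (m_mul_left (ofNat_mem A 3)
        (m_pow hu two_ne_zero)) (m_mul_left (mul_mem (ofNat_mem A 2) H.h2) hu)) H.a4_m)
    · exact m_add (m_add (m_mul_left (ofNat_mem A 2) hz) (m_mul_left H.h1 hu)) H.a3_m

variable [DecidableEq K]

theorem NodeAt.not_sing_double {r t : K} (hn : NodeAt A W r t) {x y : K}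
    {h : W.Nonsingular x y} (hs : Sing W A (.some x y h))
    (hmid : (x - r) ^ 2 /
      (r ^ 3 + W.a₂ * r ^ 2 + W.a₄ * r + W.a₆ - (t ^ 2 + W.a₁ * r * t + W.a₃ * t)) ∈ A) :
    ¬ Sing W A (.some x y h + .some x y h) := by
  by_cases hy : y = W.negY x y
  · rw [Point.add_of_Y_eq rfl hy]; exact not_sing_zero
  rw [Point.add_of_Y_ne hy, hn.sing_iff, slope_of_Y_ne rfl hy]
  have hd : 2 * (y - t) + W.a₁ * (x - r) + fY W r t ≠ 0 := by
    intro e; apply hy; simp only [negY, fY] at *; linear_combination e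
  convert hn.coeff.middle_double (translated_eq h.1 r t) (hn.sing_iff.1 hs) hmid hd using 2
  simp only [Affine.addX, negY, fX, fY]
  ring

/-- Two points in the same branch at the node differ by a point with nonsingular reduction. -/
theorem NodeAt.not_sing_sub {r t : K} (hn : NodeAt A W r t) {x y x' y' : K}
    {h : W.Nonsingular x y} {h' : W.Nonsingular x' y'} (hs : Sing W A (.some x y h))
    (hbr : (r ^ 3 + W.a₂ * r ^ 2 + W.a₄ * r + W.a₆ - (t ^ 2 + W.a₁ * r * t + W.a₃ * t))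
      / (x - r) ^ 2 ∈ A.nonunits)
    (hu0 : x - r ≠ 0) (hc : IsU A ((x' - r) / (x - r)))
    (hw : (y' - t) / (x' - r) - (y - t) / (x - r) ∈ A.nonunits) :
    ¬ Sing W A (.some x' y' h' - .some x y h) := by
  have hu := hn.sing_iff.1 hs
  by_cases hxx : x' = x
  · subst hxx
    have hyy : y' = y := by
      have := hn.coeff.branch_eq (translated_eq h.1 r t) (translated_eq h'.1 r t) hu hu0 hbr hw
      linear_combination this
    subst hyy
    rw [sub_self]; exact not_sing_zero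
  rw [sub_eq_add_neg, Point.neg_some, Point.add_of_X_ne hxx, hn.sing_iff, slope_of_X_ne hxx]
  have hne : x' - r ≠ x - r := fun e => hxx (by linear_combination e)
  convert hn.coeff.branch_chord (translated_eq h.1 r t) hu hu0 hbr hc hw hne using 2
  have e : (y' - W.negY x y) / (x' - x)
      = ((y' - t) + (y - t) + W.a₁ * (x - r) + fY W r t) / ((x' - r) - (x - r)) := by
    simp only [negY, fY]; congr 1 <;> ring
  rw [e, Affine.addX]
  ring

end Fermat.Agent.Frey
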