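import Mathlib.AlgebraicGeometry.EllipticCurve.Weierstrass
import Mathlib.RingTheory.Int.Basic
import Mathlib.RingTheory.Multiplicity
import Fermat.Agent.Frey.Node

/-!
A point with singular reduction on a curve with integral coefficients, multiplicative at `ℓ`,
gives an integral approximate node `(r,t)`.
-/

namespace Fermat.Agent.Frey

open WeierstrassCurve WeierstrassCurve.Affine WeierstrassCurve.Affine.Point

variable {K : Type*} [Field K] [CharZero K] {A : ValuationSubring K} {ℓ : ℕ}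

omit [CharZero K] in
/-- A model over `ℤ` has coefficients in every valuation subring. -/
theorem intCoeff_map (W : WeierstrassCurve ℤ) (A : ValuationSubring K)
    {E : WeierstrassCurve.Affine K} (hE : E = W.map (Int.castRingHom K)) : IntCoeff A E := by
  subst hE
  constructor <;> simp only [map_a₁, map_a₂, map_a₃, map_a₄, map_a₆] <;>
    exact intCast_mem A _

/-- A solution in `A` of a congruence `a y ≡ b` with `ℓ ∤ a` is congruent to an integer. -/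
theorem exists_int_congr (hℓ : ℓ.Prime)
    (hA : ∀ n : ℤ, (n : K) ∈ A.nonunits ↔ (ℓ : ℤ) ∣ n) {a b : ℤ} (ha : ¬ (ℓ : ℤ) ∣ a) {y : K}
    (hy : y ∈ A) (h : (a : K) * y - b ∈ A.nonunits) : ∃ t : ℤ, y - t ∈ A.nonunits := by
  obtain ⟨c, d, hcd⟩ : IsCoprime a (ℓ : ℤ) :=
    ((Nat.prime_iff_prime_int.1 hℓ).coprime_iff_not_dvd.2 ha).symm
  refine ⟨c * b, ?_⟩
  have hk : (c : K) * a + d * (ℓ : K) = 1 := by exact_mod_cast hcd
  have e : y - ((c * b : ℤ) : K) = (c : K) * ((a : K) * y - b) + ((ℓ : ℤ) : K) * ((d : K) * y) := by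
    push_cast; linear_combination -y * hk
  rw [e]
  exact m_add (m_mul_left (intCast_mem A c) h)
    (m_mul_right ((hA _).2 dvd_rfl) (mul_mem (intCast_mem A d) hy))

/-- If `ℓ ^ M` divides `a` but not `b`, then `a / b` is integral at `ℓ`. -/
theorem div_mem_of_dvd (hℓ : ℓ.Prime) (hA : ∀ n : ℤ, (n : K) ∈ A.nonunits ↔ (ℓ : ℤ) ∣ n)
    {a b : ℤ} {M : ℕ} (ha : (ℓ : ℤ) ^ M ∣ a) (hb : ¬ (ℓ : ℤ) ^ M ∣ b) : (a : K) / b ∈ A := by
  have hfin : FiniteMultiplicity (ℓ : ℤ) b := by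
    refine Int.finiteMultiplicity_iff.2 ⟨?_, fun h => hb (h ▸ dvd_zero _)⟩
    simpa using hℓ.ne_one
  obtain ⟨b', hb', hnd⟩ := hfin.exists_eq_pow_mul_and_not_dvd
  set j := multiplicity (ℓ : ℤ) b
  have hjM : j < M := by
    by_contra hle
    exact hb (hb' ▸ dvd_mul_of_dvd_left (pow_dvd_pow _ (not_lt.1 hle)) _)
  obtain ⟨a', rfl⟩ := dvd_trans (pow_dvd_pow _ hjM.le) ha
  have hu : IsU A (b' : K) := isU_of_mem (intCast_mem A _) fun h => hnd ((hA _).1 h)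
  have hl : ((ℓ : ℤ) : K) ≠ 0 := Int.cast_ne_zero.2 (by exact_mod_cast hℓ.ne_zero)
  have e : (((ℓ : ℤ) ^ j * a' : ℤ) : K) / (b : K) = (a' : K) / b' := by
    rw [hb']; push_cast at hl ⊢
    rw [mul_div_mul_left _ _ (pow_ne_zero _ hl)]
  rw [e]
  exact mem_div_of_isU (intCast_mem A _) hu

/-- Newton iteration towards the critical point of the Weierstrass polynomial. -/
theorem exists_critical (hℓ : ℓ.Prime) (a1 a2 a3 a4 : ℤ) (r0 t0 : ℤ)
    (hY : (ℓ : ℤ) ∣ 2 * t0 + a1 * r0 + a3)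
    (hX : (ℓ : ℤ) ∣ a1 * t0 - (3 * r0 ^ 2 + 2 * a2 * r0 + a4))
    (hJ : ¬ (ℓ : ℤ) ∣ a1 ^ 2 + 4 * a2 + 12 * r0) (k : ℕ) :
    ∃ r t : ℤ, (ℓ : ℤ) ∣ r - r0 ∧ (ℓ : ℤ) ∣ t - t0 ∧
      (ℓ : ℤ) ^ (k + 1) ∣ 2 * t + a1 * r + a3 ∧
      (ℓ : ℤ) ^ (k + 1) ∣ a1 * t - (3 * r ^ 2 + 2 * a2 * r + a4) := by
  induction k with
  | zero => exact ⟨r0, t0, by simp, by simp, by simpa using hY, by simpa using hX⟩
  | succ k ih =>
    obtain ⟨r, t, hr, ht, hY', hX'⟩ := ih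
    set J := a1 ^ 2 + 4 * a2 + 12 * r with hJdef
    have hJ' : ¬ (ℓ : ℤ) ∣ J := fun h => hJ (by
      have e : a1 ^ 2 + 4 * a2 + 12 * r0 = J - 12 * (r - r0) := by rw [hJdef]; ring
      exact e ▸ dvd_sub h (hr.mul_left 12))
    obtain ⟨D, d, hD⟩ : IsCoprime J (ℓ : ℤ) :=
      ((Nat.prime_iff_prime_int.1 hℓ).coprime_iff_not_dvd.2 hJ').symm
    set Y := 2 * t + a1 * r + a3 with hYd
    set X := a1 * t - (3 * r ^ 2 + 2 * a2 * r + a4) with hXd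
    set e := D * (-a1 * Y + 2 * X) with he
    set f := D * (-a1 * X - (6 * r + 2 * a2) * Y) with hf
    have hpk : (ℓ : ℤ) ∣ (ℓ : ℤ) ^ (k + 1) := dvd_pow_self _ (Nat.succ_ne_zero k)
    have hel : (ℓ : ℤ) ^ (k + 1) ∣ e :=
      (dvd_add (hY'.mul_left _) (hX'.mul_left _)).mul_left _
    have hfl : (ℓ : ℤ) ^ (k + 1) ∣ f :=
      (dvd_sub (hX'.mul_left _) (hY'.mul_left _)).mul_left _
    refine ⟨r + e, t + f, ?_, ?_, ?_, ?_⟩
    · simpa [add_sub_right_comm] using dvd_add hr (hpk.trans hel)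
    · simpa [add_sub_right_comm] using dvd_add ht (hpk.trans hfl)
    · have : 2 * (t + f) + a1 * (r + e) + a3 = (d * ℓ) * Y := by
        rw [he, hf, hYd, hXd]; linear_combination -Y * hD
      rw [this, pow_succ']
      exact mul_dvd_mul (dvd_mul_left _ _) hY'
    · have : a1 * (t + f) - (3 * (r + e) ^ 2 + 2 * a2 * (r + e) + a4)
          = (d * ℓ) * X - 3 * e ^ 2 := by
        rw [he, hf, hYd, hXd]; linear_combination -X * hD
      rw [this, pow_succ']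
      refine dvd_sub (mul_dvd_mul (dvd_mul_left _ _) hX') (dvd_mul_of_dvd_right ?_ _)
      rw [pow_two]
      exact mul_dvd_mul (hpk.trans hel) hel

omit [CharZero K] in
/-- A point with singular reduction forces `ℓ ∣ Δ`. -/
theorem dvd_Δ_of_sing (hA : ∀ n : ℤ, (n : K) ∈ A.nonunits ↔ (ℓ : ℤ) ∣ n)
    (W : WeierstrassCurve ℤ) {E : WeierstrassCurve.Affine K}
    (hE : E = W.map (Int.castRingHom K)) {x y : K} {h : E.Nonsingular x y}
    (hs : Sing E A (.some x y h)) : (ℓ : ℤ) ∣ W.Δ := by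
  have hW := intCoeff_map W A hE
  obtain ⟨hx, hX, hY⟩ := hs
  have hy := y_mem hW h.1 hx
  rw [← hA]
  have e : E.Δ = (W.Δ : K) := by
    rw [hE]
    simp
  rw [← e]
  set p := fY E x y with hp
  set q := fX E x y with hq
  set α := E.a₁ with hα
  set β := E.a₂ + 3 * x with hβ
  have heq := (E.equation_iff x y).1 h.1
  have key : E.Δ = -(α ^ 2 + 4 * β) ^ 2 * (α * q * p + β * p ^ 2 - q ^ 2)
      - 8 * (-2 * q + α * p) ^ 3 - 27 * (p ^ 2) ^ 2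
      + 9 * (α ^ 2 + 4 * β) * (-2 * q + α * p) * p ^ 2 := by
    simp only [WeierstrassCurve.Δ, b₂, b₄, b₆, b₈, hp, hq, hα, hβ, fX, fY]
    have ha6 : E.a₆ = y ^ 2 + E.a₁ * x * y + E.a₃ * y - x ^ 3 - E.a₂ * x ^ 2 - E.a₄ * x := by
      linear_combination -heq
    rw [ha6]
    ring
  have hαA : α ∈ A := hW.h1
  have hβA : β ∈ A := add_mem hW.h2 (mul_mem (ofNat_mem A 3) hx)
  have hbA : α ^ 2 + 4 * β ∈ A := add_mem (pow_mem hαA 2) (mul_mem (ofNat_mem A 4) hβA)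
  have hd4 : -2 * q + α * p ∈ A.nonunits :=
    m_add (m_mul_left (neg_mem (ofNat_mem A 2)) hX) (m_mul_left hαA hY)
  rw [key]
  refine m_add (m_sub (m_sub ?_ ?_) ?_) ?_
  · exact m_mul_left (neg_mem (pow_mem hbA 2)) (m_sub (m_add (m_mul_left
      (mul_mem hαA (m_mem hX)) hY) (m_mul_left hβA (m_pow hY two_ne_zero))) (m_pow hX two_ne_zero))
  · exact m_mul_left (ofNat_mem A 8) (m_pow hd4 (by norm_num))
  · exact m_mul_left (ofNat_mem A 27) (m_pow (m_pow hY two_ne_zero) two_ne_zero)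
  · exact m_mul_left (mul_mem (mul_mem (ofNat_mem A 9) hbA) (m_mem hd4)) (m_pow hY two_ne_zero)

/-- A singular point of the reduction modulo a multiplicative prime is congruent to an integral
point. -/
theorem exists_int_congr_sing (hℓ : ℓ.Prime) (hA : ∀ n : ℤ, (n : K) ∈ A.nonunits ↔ (ℓ : ℤ) ∣ n)
    (W : WeierstrassCurve ℤ) (hc : ¬ (ℓ : ℤ) ∣ W.c₄) {x y : K} (hx : x ∈ A) (hy : y ∈ A)
    (heq : y ^ 2 + (W.a₁ : K) * x * y + (W.a₃ : K) * y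
      = x ^ 3 + (W.a₂ : K) * x ^ 2 + (W.a₄ : K) * x + W.a₆)
    (hX : (W.a₁ : K) * y - (3 * x ^ 2 + 2 * (W.a₂ : K) * x + W.a₄) ∈ A.nonunits)
    (hY : 2 * y + (W.a₁ : K) * x + W.a₃ ∈ A.nonunits) :
    ∃ r0 t0 : ℤ, x - r0 ∈ A.nonunits ∧ y - t0 ∈ A.nonunits := by
  -- the abscissa of the node is congruent to an integer
  obtain ⟨r0, hr0⟩ : ∃ r0 : ℤ, x - r0 ∈ A.nonunits := by
    refine exists_int_congr hℓ hA (a := W.c₄) (b := 18 * W.b₆ - W.b₂ * W.b₄) hc hx ?_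
    set p := 2 * y + (W.a₁ : K) * x + W.a₃ with hp
    set q := (W.a₁ : K) * y - (3 * x ^ 2 + 2 * (W.a₂ : K) * x + W.a₄) with hq
    have e : (W.c₄ : K) * x - ((18 * W.b₆ - W.b₂ * W.b₄ : ℤ) : K)
        = -(18 * p ^ 2 - (12 * x + (W.b₂ : K)) * (-2 * q + (W.a₁ : K) * p)) := by
      simp only [WeierstrassCurve.c₄, b₂, b₄, b₆, hp, hq]; push_cast
      linear_combination 72 * heq
    rw [e]
    refine m_neg (m_sub (m_mul_left (ofNat_mem A 18) (m_pow hY two_ne_zero)) (m_mul_left ?_ ?_))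
    · exact add_mem (mul_mem (ofNat_mem A 12) hx) (intCast_mem A _)
    · exact m_add (m_mul_left (neg_mem (ofNat_mem A 2)) hX) (m_mul_left (intCast_mem A _) hY)
  -- so is its ordinate
  obtain ⟨t0, ht0⟩ : ∃ t0 : ℤ, y - t0 ∈ A.nonunits := by
    by_cases h2 : (ℓ : ℤ) ∣ 2
    · have ha1 : ¬ (ℓ : ℤ) ∣ W.a₁ := fun h1 => hc (by
        have e : W.c₄ = W.a₁ * (W.a₁ * W.b₂) + 2 * (2 * W.a₂ * W.b₂ - 12 * W.b₄) := by
          simp only [WeierstrassCurve.c₄, b₂]; ring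
        rw [e]; exact dvd_add (h1.mul_right _) (h2.mul_right _))
      refine exists_int_congr hℓ hA (b := 3 * r0 ^ 2 + 2 * W.a₂ * r0 + W.a₄) ha1 hy ?_
      have e : (W.a₁ : K) * y - ((3 * r0 ^ 2 + 2 * W.a₂ * r0 + W.a₄ : ℤ) : K)
          = ((W.a₁ : K) * y - (3 * x ^ 2 + 2 * (W.a₂ : K) * x + W.a₄))
            + (x - r0) * (3 * (x + r0) + 2 * (W.a₂ : K)) := by push_cast; ring
      rw [e]
      exact m_add hX (m_mul_right hr0 (add_mem (mul_mem (ofNat_mem A 3)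
        (add_mem hx (intCast_mem A _))) (mul_mem (ofNat_mem A 2) (intCast_mem A _))))
    · refine exists_int_congr hℓ hA (b := -(W.a₁ * r0 + W.a₃)) h2 hy ?_
      have e : ((2 : ℤ) : K) * y - ((-(W.a₁ * r0 + W.a₃) : ℤ) : K)
          = (2 * y + (W.a₁ : K) * x + W.a₃) - (W.a₁ : K) * (x - r0) := by push_cast; ring
      rw [e]
      exact m_sub hY (m_mul_left (intCast_mem A _) hr0)
  exact ⟨r0, t0, hr0, ht0⟩

/-- An integer dividing `a₃`, `a₄` and `a₆` of a translated equation divides the discriminant. -/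
theorem dvd_Δ_of_dvd_translated (W : WeierstrassCurve ℤ) {n r t : ℤ}
    (h3 : n ∣ 2 * t + W.a₁ * r + W.a₃)
    (h4 : n ∣ W.a₁ * t - (3 * r ^ 2 + 2 * W.a₂ * r + W.a₄))
    (h6 : n ∣ r ^ 3 + W.a₂ * r ^ 2 + W.a₄ * r + W.a₆ - (t ^ 2 + W.a₁ * r * t + W.a₃ * t)) :
    n ∣ W.Δ := by
  set a3' := 2 * t + W.a₁ * r + W.a₃ with ha3'
  set a4' := -(W.a₁ * t - (3 * r ^ 2 + 2 * W.a₂ * r + W.a₄)) with ha4'
  set a6' := r ^ 3 + W.a₂ * r ^ 2 + W.a₄ * r + W.a₆ - (t ^ 2 + W.a₁ * r * t + W.a₃ * t) with ha6'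
  set β := W.a₂ + 3 * r with hβ
  set B := W.a₁ ^ 2 + 4 * β with hB
  have e : W.Δ = a6' * (-B ^ 2 * (W.a₁ ^ 2 + 4 * β) + 9 * B * (2 * a4' + W.a₁ * a3') * 4
        - 27 * (2 * a3' ^ 2 * 4 + 16 * a6'))
      + a3' * (-B ^ 2 * (-(W.a₁ * a4') + β * a3') + 9 * B * (2 * a4' + W.a₁ * a3') * a3'
        - 27 * a3' ^ 3 - 8 * W.a₁ * (2 * a4' + W.a₁ * a3') ^ 2)
      + a4' * (B ^ 2 * a4' - 16 * (2 * a4' + W.a₁ * a3') ^ 2) := by
    simp only [WeierstrassCurve.Δ, b₂, b₄, b₆, b₈, hB, hβ, ha3', ha4', ha6']; ring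
  rw [e]
  exact dvd_add (dvd_add (h6.mul_right _) (h3.mul_right _)) ((dvd_neg.2 h4).mul_right _)

/-- A point with singular reduction at a multiplicative prime gives an integral node. -/
theorem exists_nodeAt (hℓ : ℓ.Prime) (hA : ∀ n : ℤ, (n : K) ∈ A.nonunits ↔ (ℓ : ℤ) ∣ n)
    (W : WeierstrassCurve ℤ) (hΔ : W.Δ ≠ 0) (hc : ¬ (ℓ : ℤ) ∣ W.c₄)
    {E : WeierstrassCurve.Affine K}
    (hE : E = W.map (Int.castRingHom K)) {x y : K} {h : E.Nonsingular x y}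
    (hs : Sing E A (.some x y h)) : ∃ r t : ℤ, NodeAt A E (r : K) (t : K) := by
  have hW := intCoeff_map W A hE
  obtain ⟨hx, hX, hY⟩ := hs
  have hy := y_mem hW h.1 hx
  have heq := (E.equation_iff x y).1 h.1
  have ea1 : E.a₁ = (W.a₁ : K) := by rw [hE]; rfl
  have ea2 : E.a₂ = (W.a₂ : K) := by rw [hE]; rfl
  have ea3 : E.a₃ = (W.a₃ : K) := by rw [hE]; rfl
  have ea4 : E.a₄ = (W.a₄ : K) := by rw [hE]; rfl
  have ea6 : E.a₆ = (W.a₆ : K) := by rw [hE]; rfl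
  simp only [fX, fY, ea1, ea2, ea3, ea4] at hX hY
  rw [ea1, ea2, ea3, ea4, ea6] at heq
  obtain ⟨r0, t0, hr0, ht0⟩ := exists_int_congr_sing hℓ hA W hc hx hy heq hX hY
  have hY0 : (ℓ : ℤ) ∣ 2 * t0 + W.a₁ * r0 + W.a₃ := by
    rw [← hA]
    have e : ((2 * t0 + W.a₁ * r0 + W.a₃ : ℤ) : K) = (2 * y + (W.a₁ : K) * x + W.a₃)
        - (2 * (y - t0) + (W.a₁ : K) * (x - r0)) := by push_cast; ring
    rw [e]
    exact m_sub hY (m_add (m_mul_left (ofNat_mem A 2) ht0) (m_mul_left (intCast_mem A _) hr0))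
  have hX0 : (ℓ : ℤ) ∣ W.a₁ * t0 - (3 * r0 ^ 2 + 2 * W.a₂ * r0 + W.a₄) := by
    rw [← hA]
    have e : ((W.a₁ * t0 - (3 * r0 ^ 2 + 2 * W.a₂ * r0 + W.a₄) : ℤ) : K)
        = ((W.a₁ : K) * y - (3 * x ^ 2 + 2 * (W.a₂ : K) * x + W.a₄))
          - ((W.a₁ : K) * (y - t0) - (x - r0) * (3 * (x + r0) + 2 * (W.a₂ : K))) := by
      push_cast; ring
    rw [e]
    exact m_sub hX (m_sub (m_mul_left (intCast_mem A _) ht0) (m_mul_right hr0
      (add_mem (mul_mem (ofNat_mem A 3) (add_mem hx (intCast_mem A _)))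
        (mul_mem (ofNat_mem A 2) (intCast_mem A _)))))
  have hJ0 : ¬ (ℓ : ℤ) ∣ W.a₁ ^ 2 + 4 * W.a₂ + 12 * r0 := fun hj => hc (by
    have e : W.c₄ = (W.a₁ ^ 2 + 4 * W.a₂ + 12 * r0) * (W.a₁ ^ 2 + 4 * W.a₂ + 12 * r0)
        - 24 * (W.a₁ * (2 * t0 + W.a₁ * r0 + W.a₃)
          - 2 * (W.a₁ * t0 - (3 * r0 ^ 2 + 2 * W.a₂ * r0 + W.a₄))) := by
      simp only [WeierstrassCurve.c₄, b₂, b₄]; ring
    rw [e]
    exact dvd_sub (hj.mul_right _) (((hY0.mul_left _).sub (hX0.mul_left _)).mul_left _))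
  obtain ⟨M, hM⟩ : ∃ M : ℕ, ¬ (ℓ : ℤ) ^ M ∣ W.Δ := by
    by_contra hall
    push Not at hall
    exact (Int.finiteMultiplicity_iff.2
        ⟨by simpa using hℓ.ne_one, hΔ⟩).not_pow_dvd_of_multiplicity_lt
      (Nat.lt_succ_self _) (hall _)
  obtain ⟨r, t, hr, ht, hYM, hXM⟩ := exists_critical hℓ _ _ _ _ r0 t0 hY0 hX0 hJ0 M
  refine ⟨r, t, intCast_mem A r, intCast_mem A t, ?_⟩
  have hYM' := (pow_dvd_pow (ℓ : ℤ) (Nat.le_succ M)).trans hYM
  have hXM' := (pow_dvd_pow (ℓ : ℤ) (Nat.le_succ M)).trans hXM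
  set a3' := 2 * t + W.a₁ * r + W.a₃ with ha3'
  set a4' := -(W.a₁ * t - (3 * r ^ 2 + 2 * W.a₂ * r + W.a₄)) with ha4'
  set a6' := r ^ 3 + W.a₂ * r ^ 2 + W.a₄ * r + W.a₆ - (t ^ 2 + W.a₁ * r * t + W.a₃ * t) with ha6'
  have c3 : fY E (r : K) t = (a3' : K) := by
    simp only [fY, ea1, ea3, ha3']; push_cast; ring
  have c4 : -fX E (r : K) t = (a4' : K) := by
    simp only [fX, ea1, ea2, ea4, ha4']; push_cast; ring
  have c6 : (r : K) ^ 3 + E.a₂ * r ^ 2 + E.a₄ * r + E.a₆ - ((t : K) ^ 2 + E.a₁ * r * t + E.a₃ * t)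
      = (a6' : K) := by
    simp only [ea1, ea2, ea3, ea4, ea6, ha6']; push_cast; ring
  have h6M : ¬ (ℓ : ℤ) ^ M ∣ a6' := fun h6 => hM (dvd_Δ_of_dvd_translated W hYM' hXM' h6)
  rw [c3, c4, c6]
  constructor
  · exact hW.h1
  · exact add_mem hW.h2 (mul_mem (ofNat_mem A 3) (intCast_mem A r))
  · exact div_mem_of_dvd hℓ hA hYM' h6M
  · exact div_mem_of_dvd hℓ hA (dvd_neg.2 hXM') h6M
  · have hxr : x - r ∈ A.nonunits := by
      have e : x - r = (x - r0) - ((r - r0 : ℤ) : K) := by push_cast; ring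
      rw [e]; exact m_sub hr0 ((hA _).2 hr)
    have hyt : y - t ∈ A.nonunits := by
      have e : y - t = (y - t0) - ((t - t0 : ℤ) : K) := by push_cast; ring
      rw [e]; exact m_sub ht0 ((hA _).2 ht)
    have e : (a6' : K) = (y - t) * ((y - t) + (W.a₁ : K) * (x - r) + a3')
        - (x - r) * ((x - r) ^ 2 + ((W.a₂ : K) + 3 * r) * (x - r) + a4') := by
      simp only [ha3', ha4', ha6']; push_cast; linear_combination -heq
    rw [e]
    refine m_sub (m_mul_right hyt ?_) (m_mul_right hxr ?_)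
    · exact add_mem (add_mem (m_mem hyt) (mul_mem (intCast_mem A _) (m_mem hxr))) (intCast_mem A _)
    · exact add_mem (add_mem (pow_mem (m_mem hxr) 2)
        (mul_mem (add_mem (intCast_mem A _) (mul_mem (ofNat_mem A 3) (intCast_mem A r)))
          (m_mem hxr))) (intCast_mem A _)
  · exact Int.cast_ne_zero.2 fun h0 => h6M (h0 ▸ dvd_zero _)
  · have e : E.a₁ ^ 2 + 4 * (E.a₂ + 3 * (r : K))
        = ((W.a₁ ^ 2 + 4 * W.a₂ + 12 * r : ℤ) : K) := by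
      rw [ea1, ea2]; push_cast; ring
    rw [e]
    refine isU_of_mem (intCast_mem A _) fun hm => hJ0 ?_
    have e' : W.a₁ ^ 2 + 4 * W.a₂ + 12 * r0
        = W.a₁ ^ 2 + 4 * W.a₂ + 12 * r - 12 * (r - r0) := by ring
    exact e' ▸ dvd_sub ((hA _).1 hm) (hr.mul_left 12)

end Fermat.Agent.Frey
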